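import Mathlib
import Fermat.Agent.S52.Iface
import Fermat.Agent.Lib.Torsion.CountBasic

/-!
# FrobTrace / Char2 / Basic: tools for `φ² - a φ + 2 = 0` over `F₂`
(helper51)

Over `F₂` there are 16 smooth Weierstrass equations.  For each of them the relation
`φ² - a φ + 2 = 0` is checked on all points outside a finite set by explicit chord/tangent
computations (polynomial identity certificates), and extended to all points because a
homomorphism of an infinite group vanishing outside a finite set vanishes identically.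

This file: the chord and tangent formulas in "relation form", Frobenius on affine points,
the curve equation over an extension, the point count over `F₂`.
-/

set_option autoImplicit false

open WeierstrassCurve WeierstrassCurve.Affine

namespace Fermat.Agent.FrobTrace.Char2

open Fermat.Agent.S52 (frobPt)

section Field

variable {k : Type*} [Field k] [DecidableEq k]

/-- equality of affine points from equality of coordinates -/
lemma some_eq_some_of (E : Affine k) {x y X Y : k} (h : E.Nonsingular x y) (hX : x = X)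
    (hY : y = Y) : ∃ h' : E.Nonsingular X Y, Point.some x y h = Point.some X Y h' := by
  subst hX hY
  exact ⟨h, rfl⟩

/-- the chord formula in relation form -/
lemma chord_some (E : Affine k) {x₁ y₁ x₂ y₂ : k} (h₁ : E.Nonsingular x₁ y₁)
    (h₂ : E.Nonsingular x₂ y₂) (hx : x₁ - x₂ ≠ 0) {m X Y : k}
    (hm : m * (x₁ - x₂) = y₁ - y₂)
    (hX : X = m ^ 2 + E.a₁ * m - E.a₂ - x₁ - x₂)
    (hY : Y = -(m * (X - x₁) + y₁) - E.a₁ * X - E.a₃) :
    ∃ h₃ : E.Nonsingular X Y, Point.some x₁ y₁ h₁ + Point.some x₂ y₂ h₂ = Point.some X Y h₃ := by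
  have hx' : x₁ ≠ x₂ := sub_ne_zero.mp hx
  have hs : E.slope x₁ x₂ y₁ y₂ = m := by
    rw [Affine.slope_of_X_ne hx', div_eq_iff hx]
    exact hm.symm
  rw [Point.add_of_X_ne hx']
  apply some_eq_some_of
  · rw [hs, Affine.addX, hX]
  · rw [hs, Affine.addY, Affine.negAddY, Affine.negY, Affine.addX, hY, hX]

/-- the tangent formula in relation form -/
lemma tangent_some (E : Affine k) {x y : k} (h : E.Nonsingular x y)
    (hD : 2 * y + E.a₁ * x + E.a₃ ≠ 0) {l X Y : k}
    (hl : l * (2 * y + E.a₁ * x + E.a₃) = 3 * x ^ 2 + 2 * E.a₂ * x + E.a₄ - E.a₁ * y)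
    (hX : X = l ^ 2 + E.a₁ * l - E.a₂ - x - x)
    (hY : Y = -(l * (X - x) + y) - E.a₁ * X - E.a₃) :
    ∃ h₃ : E.Nonsingular X Y, Point.some x y h + Point.some x y h = Point.some X Y h₃ := by
  have hD' : y - E.negY x y ≠ 0 := by
    have : y - E.negY x y = 2 * y + E.a₁ * x + E.a₃ := by rw [Affine.negY]; ring
    rw [this]
    exact hD
  have hy : y ≠ E.negY x y := sub_ne_zero.mp hD'
  have hs : E.slope x x y y = l := by
    rw [Affine.slope_of_Y_ne rfl hy, div_eq_iff hD']
    rw [Affine.negY]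
    linear_combination -hl
  rw [Point.add_self_of_Y_ne hy]
  apply some_eq_some_of
  · rw [hs, Affine.addX, hX]
  · rw [hs, Affine.addY, Affine.negAddY, Affine.negY, Affine.addX, hY, hX]

/-- the sum of opposite points -/
lemma add_some_eq_zero (E : Affine k) {x₁ y₁ x₂ y₂ : k} (h₁ : E.Nonsingular x₁ y₁)
    (h₂ : E.Nonsingular x₂ y₂) (hx : x₁ = x₂) (hy : y₁ = -y₂ - E.a₁ * x₂ - E.a₃) :
    Point.some x₁ y₁ h₁ + Point.some x₂ y₂ h₂ = 0 :=
  Point.add_of_Y_eq hx (by rw [Affine.negY]; exact hy)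

/-- the negative of an affine point -/
lemma neg_some_eq (E : Affine k) {x y : k} (h : E.Nonsingular x y) :
    ∃ h' : E.Nonsingular x (-y - E.a₁ * x - E.a₃),
      -Point.some x y h = Point.some x (-y - E.a₁ * x - E.a₃) h' := by
  rw [Point.neg_some]
  exact ⟨_, rfl⟩

end Field

section Frob

variable {ℓ : ℕ} [Fact ℓ.Prime] (W : WeierstrassCurve (ZMod ℓ))
variable {k : Type*} [Field k] [Algebra (ZMod ℓ) k] [DecidableEq k]

/-- Frobenius on an affine point is the coordinatewise `ℓ`-th power. -/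
theorem frobPt_some_pow {x y : k} (h : (W⁄k).Nonsingular x y) :
    ∃ h' : (W⁄k).Nonsingular (x ^ ℓ) (y ^ ℓ),
      frobPt W k (Point.some x y h) = Point.some (x ^ ℓ) (y ^ ℓ) h' := by
  have hcard : Fintype.card (ZMod ℓ) = ℓ := ZMod.card ℓ
  have e : frobPt W k (Point.some x y h) = Point.some _ _
      ((Affine.baseChange_nonsingular (W := W)
        (FiniteField.frobeniusAlgHom (ZMod ℓ) k).injective x y).mpr h) := by
    simp only [frobPt]
    exact Point.map_some _ _
  rw [e]
  apply some_eq_some_of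
  · simp [hcard]
  · simp [hcard]

theorem frobPt_zero' : frobPt W k 0 = 0 := map_zero _

omit [DecidableEq k] in
lemma baseChange_a₁ : (W⁄k).a₁ = algebraMap (ZMod ℓ) k W.a₁ := rfl
omit [DecidableEq k] in
lemma baseChange_a₂ : (W⁄k).a₂ = algebraMap (ZMod ℓ) k W.a₂ := rfl
omit [DecidableEq k] in
lemma baseChange_a₃ : (W⁄k).a₃ = algebraMap (ZMod ℓ) k W.a₃ := rfl
omit [DecidableEq k] in
lemma baseChange_a₄ : (W⁄k).a₄ = algebraMap (ZMod ℓ) k W.a₄ := rfl
omit [DecidableEq k] in
lemma baseChange_a₆ : (W⁄k).a₆ = algebraMap (ZMod ℓ) k W.a₆ := rfl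

omit [DecidableEq k] in
lemma baseChange_Δ_ne_zero (hΔ : W.Δ ≠ 0) : (W⁄k).Δ ≠ 0 := by
  change (W.map (algebraMap (ZMod ℓ) k)).Δ ≠ 0
  rw [WeierstrassCurve.map_Δ]
  exact (map_ne_zero_iff _ (FaithfulSMul.algebraMap_injective (ZMod ℓ) k)).mpr hΔ

end Frob

section Two

variable {k : Type*} [Field k] [Algebra (ZMod 2) k]

lemma two_eq_zero_of_algebra : (2 : k) = 0 := by
  have h : (2 : ZMod 2) = 0 := by decide
  have := congrArg (algebraMap (ZMod 2) k) h
  rwa [map_ofNat, map_zero] at this

lemma zmod_two_cases (a : ZMod 2) : a = 0 ∨ a = 1 := by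
  revert a
  decide

end Two

end Fermat.Agent.FrobTrace.Char2
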