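import Fermat.Agent.Lib.FrobTrace.Char2.SS

/-!
# FrobTrace / Char2 / SSId: the identity certificates for the 8 supersingular curves over `F₂`
(helper51; generated by a script)

In characteristic 2 all slopes are polynomials: the tangent slope at `(x, y)` is `x² + a₄`, the
chord slope from `φ²P` to `2P` is `x⁴ + a₂`.
-/

set_option autoImplicit false

namespace Fermat.Agent.FrobTrace.Char2

theorem ssId_c00100 {k : Type*} [Field k] (h2 : (2 : k) = 0) :
    SSIdZero (0 : k) 0 1 0 0 := by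
  unfold SSIdZero
  intro x y l hC hl
  have hl' : l = x ^ 2 := by
    linear_combination (1) * hl + (x ^ 2 - y * l) * h2
  subst hl'
  constructor
  · simp only [cX]
    linear_combination (x) * h2
  · simp only [cX, cY, nY]
    linear_combination (x ^ 3 + y ^ 2 + y + 1) * hC + (2 * x ^ 3 - y ^ 3 - y ^ 2 - y) * h2

theorem ssId_c00101 {k : Type*} [Field k] (h2 : (2 : k) = 0) :
    SSIdZero (0 : k) 0 1 0 1 := by
  unfold SSIdZero
  intro x y l hC hl
  have hl' : l = x ^ 2 := by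
    linear_combination (1) * hl + (x ^ 2 - y * l) * h2
  subst hl'
  constructor
  · simp only [cX]
    linear_combination (x) * h2
  · simp only [cX, cY, nY]
    linear_combination (x ^ 3 + y ^ 2 + y) * hC + (2 * x ^ 3 - y ^ 3) * h2

theorem ssId_c00110 {k : Type*} [Field k] (h2 : (2 : k) = 0) :
    SSIdNeg2 (0 : k) 0 1 1 0 := by
  unfold SSIdNeg2
  intro x y l hC hl
  have hl' : l = x ^ 2 + 1 := by
    linear_combination (1) * hl + (x ^ 2 - y * l) * h2
  subst hl'
  have hD1 : (x ^ 2) ^ 2 - cX 0 0 x x (x ^ 2 + 1) = 1 := by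
    simp only [cX]
    linear_combination (-x ^ 2 + x - 1) * h2
  refine ⟨by rw [hD1]; exact one_ne_zero, ?_⟩
  intro m n hm hn
  have hm' : m = x ^ 4 := by
    simp only [cX, cY] at hm
    linear_combination (1) * hm + (x ^ 3 + x + y ^ 2 + y + 1) * hC + (x ^ 6 + 2 * x ^ 4 - x ^ 3
      + x ^ 2 * m + 2 * x ^ 2 - x * m - x - y ^ 3 - y ^ 2 + m + 1) * h2
  have hn' : n = x ^ 4 + 1 := by
    linear_combination (1) * hn + (x ^ 4 - y ^ 2 * n) * h2
  subst hm' hn'
  constructor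
  · simp only [cX]
    linear_combination (-2 * x ^ 4 + x - 1) * h2
  · simp only [cX, cY, nY]
    linear_combination (x ^ 3 + x + y ^ 2 + y) * hC + (-x ^ 12 + 3 * x ^ 6 - x ^ 5 + 2 * x ^ 2
      - y ^ 4 - y ^ 3 - y ^ 2 - 1) * h2

theorem ssId_c00111 {k : Type*} [Field k] (h2 : (2 : k) = 0) :
    SSIdPos2 (0 : k) 0 1 1 1 := by
  unfold SSIdPos2
  intro x y l hC hl
  have hl' : l = x ^ 2 + 1 := by
    linear_combination (1) * hl + (x ^ 2 - y * l) * h2
  subst hl'
  have hD1 : (x ^ 2) ^ 2 - cX 0 0 x x (x ^ 2 + 1) = 1 := by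
    simp only [cX]
    linear_combination (-x ^ 2 + x - 1) * h2
  refine ⟨by rw [hD1]; exact one_ne_zero, ?_⟩
  intro m n hm hn
  have hm' : m = x ^ 4 := by
    simp only [cX, cY] at hm
    linear_combination (1) * hm + (x ^ 3 + x + y ^ 2 + y) * hC + (x ^ 6 + 2 * x ^ 4 - x ^ 3 + x ^ 2 * m
      + 2 * x ^ 2 - x * m - x - y ^ 3 + y + m + 1) * h2
  have hn' : n = x ^ 4 + 1 := by
    linear_combination (1) * hn + (x ^ 4 - y ^ 2 * n) * h2
  subst hm' hn'
  constructor
  · simp only [cX]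
    linear_combination (-2 * x ^ 4 + x - 1) * h2
  · simp only [cX, cY]
    linear_combination (x ^ 3 + x + y ^ 2 + y + 1) * hC + (3 * x ^ 8 - x ^ 5 + 3 * x ^ 4 + x ^ 3
      - x ^ 2 + x - y ^ 4 - y ^ 3 + 1) * h2

theorem ssId_c01100 {k : Type*} [Field k] (h2 : (2 : k) = 0) :
    SSIdNeg2 (0 : k) 1 1 0 0 := by
  unfold SSIdNeg2
  intro x y l hC hl
  have hl' : l = x ^ 2 := by
    linear_combination (1) * hl + (x ^ 2 + x - y * l) * h2
  subst hl'
  have hD1 : (x ^ 2) ^ 2 - cX 0 1 x x (x ^ 2) = 1 := by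
    simp only [cX]
    linear_combination (x) * h2
  refine ⟨by rw [hD1]; exact one_ne_zero, ?_⟩
  intro m n hm hn
  have hm' : m = x ^ 4 + 1 := by
    simp only [cX, cY] at hm
    linear_combination (1) * hm + (x ^ 3 + x ^ 2 + y ^ 2 + y + 1) * hC + (x ^ 6 + x ^ 5 - x ^ 3
      - x * m - y ^ 3 - y ^ 2) * h2
  have hn' : n = x ^ 4 := by
    linear_combination (1) * hn + (x ^ 4 + x ^ 2 - y ^ 2 * n) * h2
  subst hm' hn'
  constructor
  · simp only [cX]
    linear_combination (x ^ 2 + x + 1) * h2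
  · simp only [cX, cY, nY]
    linear_combination (x ^ 3 + x ^ 2 + y ^ 2 + y) * hC + (-x ^ 12 + 2 * x ^ 6 + x ^ 4 - x - y ^ 4
      - y ^ 3 - y ^ 2 - 1) * h2

theorem ssId_c01101 {k : Type*} [Field k] (h2 : (2 : k) = 0) :
    SSIdPos2 (0 : k) 1 1 0 1 := by
  unfold SSIdPos2
  intro x y l hC hl
  have hl' : l = x ^ 2 := by
    linear_combination (1) * hl + (x ^ 2 + x - y * l) * h2
  subst hl'
  have hD1 : (x ^ 2) ^ 2 - cX 0 1 x x (x ^ 2) = 1 := by
    simp only [cX]
    linear_combination (x) * h2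
  refine ⟨by rw [hD1]; exact one_ne_zero, ?_⟩
  intro m n hm hn
  have hm' : m = x ^ 4 + 1 := by
    simp only [cX, cY] at hm
    linear_combination (1) * hm + (x ^ 3 + x ^ 2 + y ^ 2 + y) * hC + (x ^ 6 + x ^ 5 - x ^ 3 - x * m
      - y ^ 3 + y) * h2
  have hn' : n = x ^ 4 := by
    linear_combination (1) * hn + (x ^ 4 + x ^ 2 - y ^ 2 * n) * h2
  subst hm' hn'
  constructor
  · simp only [cX]
    linear_combination (x ^ 2 + x + 1) * h2
  · simp only [cX, cY]
    linear_combination (x ^ 3 + x ^ 2 + y ^ 2 + y + 1) * hC + (-x ^ 6 + x ^ 3 + x ^ 2 - x - y ^ 4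
      - y ^ 3) * h2

theorem ssId_c01110 {k : Type*} [Field k] (h2 : (2 : k) = 0) :
    SSIdZero (0 : k) 1 1 1 0 := by
  unfold SSIdZero
  intro x y l hC hl
  have hl' : l = x ^ 2 + 1 := by
    linear_combination (1) * hl + (x ^ 2 + x - y * l) * h2
  subst hl'
  constructor
  · simp only [cX]
    linear_combination (-x ^ 2 + x) * h2
  · simp only [cX, cY, nY]
    linear_combination (x ^ 3 + x ^ 2 + x + y ^ 2 + y + 1) * hC + (x ^ 5 + 3 * x ^ 3 + 2 * x - y ^ 3
      - y ^ 2 - y) * h2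

theorem ssId_c01111 {k : Type*} [Field k] (h2 : (2 : k) = 0) :
    SSIdZero (0 : k) 1 1 1 1 := by
  unfold SSIdZero
  intro x y l hC hl
  have hl' : l = x ^ 2 + 1 := by
    linear_combination (1) * hl + (x ^ 2 + x - y * l) * h2
  subst hl'
  constructor
  · simp only [cX]
    linear_combination (-x ^ 2 + x) * h2
  · simp only [cX, cY, nY]
    linear_combination (x ^ 3 + x ^ 2 + x + y ^ 2 + y) * hC + (x ^ 5 + 3 * x ^ 3 + 2 * x - y ^ 3) * h2

end Fermat.Agent.FrobTrace.Char2
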