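import Fermat.Agent.Lib.FrobTrace.Char2.OrdId
import Fermat.Agent.Lib.FrobTrace.Char2.SSId

/-!
# FrobTrace / Char2 / Final: `φ² - a φ + 2 = 0` for every smooth Weierstrass equation over `F₂`
(helper51)
-/

set_option autoImplicit false

open WeierstrassCurve WeierstrassCurve.Affine

namespace Fermat.Agent.FrobTrace.Char2

open Fermat.Agent.S52 (frobPt)

section Conv

variable {G : Type*} [AddCommGroup G]

lemma conv_pos (a b c : G) (h : a - b + (c + c) = 0) :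
    a - (1 : ℤ) • b + ((2 : ℕ) : ℤ) • c = 0 := by
  rw [one_zsmul, Nat.cast_ofNat, two_zsmul]
  exact h

lemma conv_neg (a b c : G) (h : a + b + (c + c) = 0) :
    a - (-1 : ℤ) • b + ((2 : ℕ) : ℤ) • c = 0 := by
  rw [neg_one_zsmul, sub_neg_eq_add, Nat.cast_ofNat, two_zsmul]
  exact h

lemma conv_zero (a b c : G) (h : a + (c + c) = 0) :
    a - (0 : ℤ) • b + ((2 : ℕ) : ℤ) • c = 0 := by
  rw [zero_zsmul, sub_zero, Nat.cast_ofNat, two_zsmul]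
  exact h

lemma conv_pos2 (a b c : G) (h : a + (c + c) = b + b) :
    a - (2 : ℤ) • b + ((2 : ℕ) : ℤ) • c = 0 := by
  rw [Nat.cast_ofNat, two_zsmul, two_zsmul]
  have : a - (b + b) + (c + c) = a + (c + c) - (b + b) := by abel
  rw [this, h, sub_self]

lemma conv_neg2 (a b c : G) (h : a + (c + c) = -(b + b)) :
    a - (-2 : ℤ) • b + ((2 : ℕ) : ℤ) • c = 0 := by
  rw [neg_zsmul, sub_neg_eq_add, Nat.cast_ofNat, two_zsmul, two_zsmul]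
  have : a + (b + b) + (c + c) = a + (c + c) + (b + b) := by abel
  rw [this, h, neg_add_cancel]

end Conv

/-- the number of points over `F₂` -/
lemma card_point_two (W : WeierstrassCurve (ZMod 2)) (hΔ : W.Δ ≠ 0) :
    Nat.card W.toAffine.Point = 1 + Fintype.card {xy : ZMod 2 × ZMod 2 //
      xy.2 ^ 2 + W.a₁ * xy.1 * xy.2 + W.a₃ * xy.2
        = xy.1 ^ 3 + W.a₂ * xy.1 ^ 2 + W.a₄ * xy.1 + W.a₆} := by
  rw [Nat.card_congr (Affine.nonsingularPointEquiv W.toAffine)]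
  have e1 : {xy : ZMod 2 × ZMod 2 // W.toAffine.Nonsingular xy.1 xy.2}
      ≃ {xy : ZMod 2 × ZMod 2 // xy.2 ^ 2 + W.a₁ * xy.1 * xy.2 + W.a₃ * xy.2
        = xy.1 ^ 3 + W.a₂ * xy.1 ^ 2 + W.a₄ * xy.1 + W.a₆} :=
    Equiv.subtypeEquivRight (fun xy => by
      rw [← Affine.equation_iff_nonsingular_of_Δ_ne_zero hΔ, Affine.equation_iff])
  change Nat.card (Option _) = _
  rw [Finite.card_option, Nat.card_congr e1, Nat.card_eq_fintype_card, add_comm]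

/-- the trace of Frobenius over `F₂` from the coefficients -/
lemma trace_eq_of_coeffs (W : WeierstrassCurve (ZMod 2)) (hΔ : W.Δ ≠ 0)
    {c1 c2 c3 c4 c6 : ZMod 2} (e1 : W.a₁ = c1) (e2 : W.a₂ = c2) (e3 : W.a₃ = c3)
    (e4 : W.a₄ = c4) (e6 : W.a₆ = c6) (t : ℤ)
    (ht : (2 : ℤ) - (Fintype.card {xy : ZMod 2 × ZMod 2 //
      xy.2 ^ 2 + c1 * xy.1 * xy.2 + c3 * xy.2
        = xy.1 ^ 3 + c2 * xy.1 ^ 2 + c4 * xy.1 + c6} : ℤ) = t) :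
    W.traceOfFrobenius = t := by
  subst e1 e2 e3 e4 e6
  rw [WeierstrassCurve.traceOfFrobenius, WeierstrassCurve.card, card_point_two W hΔ,
    Nat.card_zmod, ← ht]
  push_cast
  ring

lemma disc_eq_of_coeffs (W : WeierstrassCurve (ZMod 2))
    {c1 c2 c3 c4 c6 : ZMod 2} (e1 : W.a₁ = c1) (e2 : W.a₂ = c2) (e3 : W.a₃ = c3)
    (e4 : W.a₄ = c4) (e6 : W.a₆ = c6) :
    W.Δ = (⟨c1, c2, c3, c4, c6⟩ : WeierstrassCurve (ZMod 2)).Δ := by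
  subst e1 e2 e3 e4 e6
  rfl

section Curves

variable (W : WeierstrassCurve (ZMod 2)) (hΔ : W.Δ ≠ 0)
variable (k : Type*) [Field k] [Algebra (ZMod 2) k] [IsAlgClosed k] [DecidableEq k]

omit [IsAlgClosed k] [DecidableEq k] in
lemma coeffs_eq {c1 c2 c3 c4 c6 : ZMod 2} (e1 : W.a₁ = c1) (e2 : W.a₂ = c2) (e3 : W.a₃ = c3)
    (e4 : W.a₄ = c4) (e6 : W.a₆ = c6) (p : k → k → k → k → k → Prop)
    (h : p (algebraMap (ZMod 2) k c1) (algebraMap (ZMod 2) k c2) (algebraMap (ZMod 2) k c3)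
      (algebraMap (ZMod 2) k c4) (algebraMap (ZMod 2) k c6)) :
    p (W⁄k).a₁ (W⁄k).a₂ (W⁄k).a₃ (W⁄k).a₄ (W⁄k).a₆ := by
  subst e1 e2 e3 e4 e6
  exact h

include hΔ in
theorem charEq_c00100 (e1 : W.a₁ = 0) (e2 : W.a₂ = 0) (e3 : W.a₃ = 1)
    (e4 : W.a₄ = 0) (e6 : W.a₆ = 0) (P : (W⁄k).Point) :
    frobPt W k (frobPt W k P) - W.traceOfFrobenius • frobPt W k P + ((2 : ℕ) : ℤ) • P = 0 := by
  have h2 : (2 : k) = 0 := two_eq_zero_of_algebra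
  have ht : W.traceOfFrobenius = 0 := trace_eq_of_coeffs W hΔ e1 e2 e3 e4 e6 (0) (by decide)
  have hid : SSIdZero (W⁄k).a₁ (W⁄k).a₂ (W⁄k).a₃ (W⁄k).a₄ (W⁄k).a₆ := by
    apply coeffs_eq W k e1 e2 e3 e4 e6 (fun a b c d e => SSIdZero a b c d e)
    simp only [map_zero, map_one]
    exact ssId_c00100 h2
  rw [ht]
  exact conv_zero _ _ _ (ss_zero (W := W) (k := k) e1 e3 hid P)

include hΔ in
theorem charEq_c00101 (e1 : W.a₁ = 0) (e2 : W.a₂ = 0) (e3 : W.a₃ = 1)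
    (e4 : W.a₄ = 0) (e6 : W.a₆ = 1) (P : (W⁄k).Point) :
    frobPt W k (frobPt W k P) - W.traceOfFrobenius • frobPt W k P + ((2 : ℕ) : ℤ) • P = 0 := by
  have h2 : (2 : k) = 0 := two_eq_zero_of_algebra
  have ht : W.traceOfFrobenius = 0 := trace_eq_of_coeffs W hΔ e1 e2 e3 e4 e6 (0) (by decide)
  have hid : SSIdZero (W⁄k).a₁ (W⁄k).a₂ (W⁄k).a₃ (W⁄k).a₄ (W⁄k).a₆ := by
    apply coeffs_eq W k e1 e2 e3 e4 e6 (fun a b c d e => SSIdZero a b c d e)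
    simp only [map_zero, map_one]
    exact ssId_c00101 h2
  rw [ht]
  exact conv_zero _ _ _ (ss_zero (W := W) (k := k) e1 e3 hid P)

include hΔ in
theorem charEq_c00110 (e1 : W.a₁ = 0) (e2 : W.a₂ = 0) (e3 : W.a₃ = 1)
    (e4 : W.a₄ = 1) (e6 : W.a₆ = 0) (P : (W⁄k).Point) :
    frobPt W k (frobPt W k P) - W.traceOfFrobenius • frobPt W k P + ((2 : ℕ) : ℤ) • P = 0 := by
  have h2 : (2 : k) = 0 := two_eq_zero_of_algebra
  have ht : W.traceOfFrobenius = -2 := trace_eq_of_coeffs W hΔ e1 e2 e3 e4 e6 (-2) (by decide)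
  have hid : SSIdNeg2 (W⁄k).a₁ (W⁄k).a₂ (W⁄k).a₃ (W⁄k).a₄ (W⁄k).a₆ := by
    apply coeffs_eq W k e1 e2 e3 e4 e6 (fun a b c d e => SSIdNeg2 a b c d e)
    simp only [map_zero, map_one]
    exact ssId_c00110 h2
  rw [ht]
  exact conv_neg2 _ _ _ (ss_neg2 (W := W) (k := k) e1 e3 hid P)

include hΔ in
theorem charEq_c00111 (e1 : W.a₁ = 0) (e2 : W.a₂ = 0) (e3 : W.a₃ = 1)
    (e4 : W.a₄ = 1) (e6 : W.a₆ = 1) (P : (W⁄k).Point) :
    frobPt W k (frobPt W k P) - W.traceOfFrobenius • frobPt W k P + ((2 : ℕ) : ℤ) • P = 0 := by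
  have h2 : (2 : k) = 0 := two_eq_zero_of_algebra
  have ht : W.traceOfFrobenius = 2 := trace_eq_of_coeffs W hΔ e1 e2 e3 e4 e6 (2) (by decide)
  have hid : SSIdPos2 (W⁄k).a₁ (W⁄k).a₂ (W⁄k).a₃ (W⁄k).a₄ (W⁄k).a₆ := by
    apply coeffs_eq W k e1 e2 e3 e4 e6 (fun a b c d e => SSIdPos2 a b c d e)
    simp only [map_zero, map_one]
    exact ssId_c00111 h2
  rw [ht]
  exact conv_pos2 _ _ _ (ss_pos2 (W := W) (k := k) e1 e3 hid P)

include hΔ in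
theorem charEq_c01100 (e1 : W.a₁ = 0) (e2 : W.a₂ = 1) (e3 : W.a₃ = 1)
    (e4 : W.a₄ = 0) (e6 : W.a₆ = 0) (P : (W⁄k).Point) :
    frobPt W k (frobPt W k P) - W.traceOfFrobenius • frobPt W k P + ((2 : ℕ) : ℤ) • P = 0 := by
  have h2 : (2 : k) = 0 := two_eq_zero_of_algebra
  have ht : W.traceOfFrobenius = -2 := trace_eq_of_coeffs W hΔ e1 e2 e3 e4 e6 (-2) (by decide)
  have hid : SSIdNeg2 (W⁄k).a₁ (W⁄k).a₂ (W⁄k).a₃ (W⁄k).a₄ (W⁄k).a₆ := by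
    apply coeffs_eq W k e1 e2 e3 e4 e6 (fun a b c d e => SSIdNeg2 a b c d e)
    simp only [map_zero, map_one]
    exact ssId_c01100 h2
  rw [ht]
  exact conv_neg2 _ _ _ (ss_neg2 (W := W) (k := k) e1 e3 hid P)

include hΔ in
theorem charEq_c01101 (e1 : W.a₁ = 0) (e2 : W.a₂ = 1) (e3 : W.a₃ = 1)
    (e4 : W.a₄ = 0) (e6 : W.a₆ = 1) (P : (W⁄k).Point) :
    frobPt W k (frobPt W k P) - W.traceOfFrobenius • frobPt W k P + ((2 : ℕ) : ℤ) • P = 0 := by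
  have h2 : (2 : k) = 0 := two_eq_zero_of_algebra
  have ht : W.traceOfFrobenius = 2 := trace_eq_of_coeffs W hΔ e1 e2 e3 e4 e6 (2) (by decide)
  have hid : SSIdPos2 (W⁄k).a₁ (W⁄k).a₂ (W⁄k).a₃ (W⁄k).a₄ (W⁄k).a₆ := by
    apply coeffs_eq W k e1 e2 e3 e4 e6 (fun a b c d e => SSIdPos2 a b c d e)
    simp only [map_zero, map_one]
    exact ssId_c01101 h2
  rw [ht]
  exact conv_pos2 _ _ _ (ss_pos2 (W := W) (k := k) e1 e3 hid P)

include hΔ in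
theorem charEq_c01110 (e1 : W.a₁ = 0) (e2 : W.a₂ = 1) (e3 : W.a₃ = 1)
    (e4 : W.a₄ = 1) (e6 : W.a₆ = 0) (P : (W⁄k).Point) :
    frobPt W k (frobPt W k P) - W.traceOfFrobenius • frobPt W k P + ((2 : ℕ) : ℤ) • P = 0 := by
  have h2 : (2 : k) = 0 := two_eq_zero_of_algebra
  have ht : W.traceOfFrobenius = 0 := trace_eq_of_coeffs W hΔ e1 e2 e3 e4 e6 (0) (by decide)
  have hid : SSIdZero (W⁄k).a₁ (W⁄k).a₂ (W⁄k).a₃ (W⁄k).a₄ (W⁄k).a₆ := by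
    apply coeffs_eq W k e1 e2 e3 e4 e6 (fun a b c d e => SSIdZero a b c d e)
    simp only [map_zero, map_one]
    exact ssId_c01110 h2
  rw [ht]
  exact conv_zero _ _ _ (ss_zero (W := W) (k := k) e1 e3 hid P)

include hΔ in
theorem charEq_c01111 (e1 : W.a₁ = 0) (e2 : W.a₂ = 1) (e3 : W.a₃ = 1)
    (e4 : W.a₄ = 1) (e6 : W.a₆ = 1) (P : (W⁄k).Point) :
    frobPt W k (frobPt W k P) - W.traceOfFrobenius • frobPt W k P + ((2 : ℕ) : ℤ) • P = 0 := by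
  have h2 : (2 : k) = 0 := two_eq_zero_of_algebra
  have ht : W.traceOfFrobenius = 0 := trace_eq_of_coeffs W hΔ e1 e2 e3 e4 e6 (0) (by decide)
  have hid : SSIdZero (W⁄k).a₁ (W⁄k).a₂ (W⁄k).a₃ (W⁄k).a₄ (W⁄k).a₆ := by
    apply coeffs_eq W k e1 e2 e3 e4 e6 (fun a b c d e => SSIdZero a b c d e)
    simp only [map_zero, map_one]
    exact ssId_c01111 h2
  rw [ht]
  exact conv_zero _ _ _ (ss_zero (W := W) (k := k) e1 e3 hid P)

include hΔ in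
theorem charEq_c10001 (e1 : W.a₁ = 1) (e2 : W.a₂ = 0) (e3 : W.a₃ = 0)
    (e4 : W.a₄ = 0) (e6 : W.a₆ = 1) (P : (W⁄k).Point) :
    frobPt W k (frobPt W k P) - W.traceOfFrobenius • frobPt W k P + ((2 : ℕ) : ℤ) • P = 0 := by
  have h2 : (2 : k) = 0 := two_eq_zero_of_algebra
  have ht : W.traceOfFrobenius = -1 := trace_eq_of_coeffs W hΔ e1 e2 e3 e4 e6 (-1) (by decide)
  have hid : OrdIdNeg (W⁄k).a₁ (W⁄k).a₂ (W⁄k).a₃ (W⁄k).a₄ (W⁄k).a₆ := by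
    apply coeffs_eq W k e1 e2 e3 e4 e6 (fun a b c d e => OrdIdNeg a b c d e)
    simp only [map_zero, map_one]
    exact ordId_c10001 h2
  rw [ht]
  exact conv_neg _ _ _ (ord_neg (W := W) (k := k) e1 hΔ hid P)

include hΔ in
theorem charEq_c10010 (e1 : W.a₁ = 1) (e2 : W.a₂ = 0) (e3 : W.a₃ = 0)
    (e4 : W.a₄ = 1) (e6 : W.a₆ = 0) (P : (W⁄k).Point) :
    frobPt W k (frobPt W k P) - W.traceOfFrobenius • frobPt W k P + ((2 : ℕ) : ℤ) • P = 0 := by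
  have h2 : (2 : k) = 0 := two_eq_zero_of_algebra
  have ht : W.traceOfFrobenius = -1 := trace_eq_of_coeffs W hΔ e1 e2 e3 e4 e6 (-1) (by decide)
  have hid : OrdIdNeg (W⁄k).a₁ (W⁄k).a₂ (W⁄k).a₃ (W⁄k).a₄ (W⁄k).a₆ := by
    apply coeffs_eq W k e1 e2 e3 e4 e6 (fun a b c d e => OrdIdNeg a b c d e)
    simp only [map_zero, map_one]
    exact ordId_c10010 h2
  rw [ht]
  exact conv_neg _ _ _ (ord_neg (W := W) (k := k) e1 hΔ hid P)

include hΔ in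
theorem charEq_c10101 (e1 : W.a₁ = 1) (e2 : W.a₂ = 0) (e3 : W.a₃ = 1)
    (e4 : W.a₄ = 0) (e6 : W.a₆ = 1) (P : (W⁄k).Point) :
    frobPt W k (frobPt W k P) - W.traceOfFrobenius • frobPt W k P + ((2 : ℕ) : ℤ) • P = 0 := by
  have h2 : (2 : k) = 0 := two_eq_zero_of_algebra
  have ht : W.traceOfFrobenius = 1 := trace_eq_of_coeffs W hΔ e1 e2 e3 e4 e6 (1) (by decide)
  have hid : OrdIdPos (W⁄k).a₁ (W⁄k).a₂ (W⁄k).a₃ (W⁄k).a₄ (W⁄k).a₆ := by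
    apply coeffs_eq W k e1 e2 e3 e4 e6 (fun a b c d e => OrdIdPos a b c d e)
    simp only [map_zero, map_one]
    exact ordId_c10101 h2
  rw [ht]
  exact conv_pos _ _ _ (ord_pos (W := W) (k := k) e1 hΔ hid P)

include hΔ in
theorem charEq_c10111 (e1 : W.a₁ = 1) (e2 : W.a₂ = 0) (e3 : W.a₃ = 1)
    (e4 : W.a₄ = 1) (e6 : W.a₆ = 1) (P : (W⁄k).Point) :
    frobPt W k (frobPt W k P) - W.traceOfFrobenius • frobPt W k P + ((2 : ℕ) : ℤ) • P = 0 := by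
  have h2 : (2 : k) = 0 := two_eq_zero_of_algebra
  have ht : W.traceOfFrobenius = 1 := trace_eq_of_coeffs W hΔ e1 e2 e3 e4 e6 (1) (by decide)
  have hid : OrdIdPos (W⁄k).a₁ (W⁄k).a₂ (W⁄k).a₃ (W⁄k).a₄ (W⁄k).a₆ := by
    apply coeffs_eq W k e1 e2 e3 e4 e6 (fun a b c d e => OrdIdPos a b c d e)
    simp only [map_zero, map_one]
    exact ordId_c10111 h2
  rw [ht]
  exact conv_pos _ _ _ (ord_pos (W := W) (k := k) e1 hΔ hid P)

include hΔ in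
theorem charEq_c11001 (e1 : W.a₁ = 1) (e2 : W.a₂ = 1) (e3 : W.a₃ = 0)
    (e4 : W.a₄ = 0) (e6 : W.a₆ = 1) (P : (W⁄k).Point) :
    frobPt W k (frobPt W k P) - W.traceOfFrobenius • frobPt W k P + ((2 : ℕ) : ℤ) • P = 0 := by
  have h2 : (2 : k) = 0 := two_eq_zero_of_algebra
  have ht : W.traceOfFrobenius = 1 := trace_eq_of_coeffs W hΔ e1 e2 e3 e4 e6 (1) (by decide)
  have hid : OrdIdPos (W⁄k).a₁ (W⁄k).a₂ (W⁄k).a₃ (W⁄k).a₄ (W⁄k).a₆ := by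
    apply coeffs_eq W k e1 e2 e3 e4 e6 (fun a b c d e => OrdIdPos a b c d e)
    simp only [map_zero, map_one]
    exact ordId_c11001 h2
  rw [ht]
  exact conv_pos _ _ _ (ord_pos (W := W) (k := k) e1 hΔ hid P)

include hΔ in
theorem charEq_c11010 (e1 : W.a₁ = 1) (e2 : W.a₂ = 1) (e3 : W.a₃ = 0)
    (e4 : W.a₄ = 1) (e6 : W.a₆ = 0) (P : (W⁄k).Point) :
    frobPt W k (frobPt W k P) - W.traceOfFrobenius • frobPt W k P + ((2 : ℕ) : ℤ) • P = 0 := by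
  have h2 : (2 : k) = 0 := two_eq_zero_of_algebra
  have ht : W.traceOfFrobenius = 1 := trace_eq_of_coeffs W hΔ e1 e2 e3 e4 e6 (1) (by decide)
  have hid : OrdIdPos (W⁄k).a₁ (W⁄k).a₂ (W⁄k).a₃ (W⁄k).a₄ (W⁄k).a₆ := by
    apply coeffs_eq W k e1 e2 e3 e4 e6 (fun a b c d e => OrdIdPos a b c d e)
    simp only [map_zero, map_one]
    exact ordId_c11010 h2
  rw [ht]
  exact conv_pos _ _ _ (ord_pos (W := W) (k := k) e1 hΔ hid P)

include hΔ in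
theorem charEq_c11100 (e1 : W.a₁ = 1) (e2 : W.a₂ = 1) (e3 : W.a₃ = 1)
    (e4 : W.a₄ = 0) (e6 : W.a₆ = 0) (P : (W⁄k).Point) :
    frobPt W k (frobPt W k P) - W.traceOfFrobenius • frobPt W k P + ((2 : ℕ) : ℤ) • P = 0 := by
  have h2 : (2 : k) = 0 := two_eq_zero_of_algebra
  have ht : W.traceOfFrobenius = -1 := trace_eq_of_coeffs W hΔ e1 e2 e3 e4 e6 (-1) (by decide)
  have hid : OrdIdNeg (W⁄k).a₁ (W⁄k).a₂ (W⁄k).a₃ (W⁄k).a₄ (W⁄k).a₆ := by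
    apply coeffs_eq W k e1 e2 e3 e4 e6 (fun a b c d e => OrdIdNeg a b c d e)
    simp only [map_zero, map_one]
    exact ordId_c11100 h2
  rw [ht]
  exact conv_neg _ _ _ (ord_neg (W := W) (k := k) e1 hΔ hid P)

include hΔ in
theorem charEq_c11110 (e1 : W.a₁ = 1) (e2 : W.a₂ = 1) (e3 : W.a₃ = 1)
    (e4 : W.a₄ = 1) (e6 : W.a₆ = 0) (P : (W⁄k).Point) :
    frobPt W k (frobPt W k P) - W.traceOfFrobenius • frobPt W k P + ((2 : ℕ) : ℤ) • P = 0 := by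
  have h2 : (2 : k) = 0 := two_eq_zero_of_algebra
  have ht : W.traceOfFrobenius = -1 := trace_eq_of_coeffs W hΔ e1 e2 e3 e4 e6 (-1) (by decide)
  have hid : OrdIdNeg (W⁄k).a₁ (W⁄k).a₂ (W⁄k).a₃ (W⁄k).a₄ (W⁄k).a₆ := by
    apply coeffs_eq W k e1 e2 e3 e4 e6 (fun a b c d e => OrdIdNeg a b c d e)
    simp only [map_zero, map_one]
    exact ordId_c11110 h2
  rw [ht]
  exact conv_neg _ _ _ (ord_neg (W := W) (k := k) e1 hΔ hid P)

end Curves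

lemma disc_c00000 : (⟨0, 0, 0, 0, 0⟩ : WeierstrassCurve (ZMod 2)).Δ = 0 := by decide
lemma disc_c00001 : (⟨0, 0, 0, 0, 1⟩ : WeierstrassCurve (ZMod 2)).Δ = 0 := by decide
lemma disc_c00010 : (⟨0, 0, 0, 1, 0⟩ : WeierstrassCurve (ZMod 2)).Δ = 0 := by decide
lemma disc_c00011 : (⟨0, 0, 0, 1, 1⟩ : WeierstrassCurve (ZMod 2)).Δ = 0 := by decide
lemma disc_c01000 : (⟨0, 1, 0, 0, 0⟩ : WeierstrassCurve (ZMod 2)).Δ = 0 := by decide
lemma disc_c01001 : (⟨0, 1, 0, 0, 1⟩ : WeierstrassCurve (ZMod 2)).Δ = 0 := by decide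
lemma disc_c01010 : (⟨0, 1, 0, 1, 0⟩ : WeierstrassCurve (ZMod 2)).Δ = 0 := by decide
lemma disc_c01011 : (⟨0, 1, 0, 1, 1⟩ : WeierstrassCurve (ZMod 2)).Δ = 0 := by decide
lemma disc_c10000 : (⟨1, 0, 0, 0, 0⟩ : WeierstrassCurve (ZMod 2)).Δ = 0 := by decide
lemma disc_c10011 : (⟨1, 0, 0, 1, 1⟩ : WeierstrassCurve (ZMod 2)).Δ = 0 := by decide
lemma disc_c10100 : (⟨1, 0, 1, 0, 0⟩ : WeierstrassCurve (ZMod 2)).Δ = 0 := by decide
lemma disc_c10110 : (⟨1, 0, 1, 1, 0⟩ : WeierstrassCurve (ZMod 2)).Δ = 0 := by decide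
lemma disc_c11000 : (⟨1, 1, 0, 0, 0⟩ : WeierstrassCurve (ZMod 2)).Δ = 0 := by decide
lemma disc_c11011 : (⟨1, 1, 0, 1, 1⟩ : WeierstrassCurve (ZMod 2)).Δ = 0 := by decide
lemma disc_c11101 : (⟨1, 1, 1, 0, 1⟩ : WeierstrassCurve (ZMod 2)).Δ = 0 := by decide
lemma disc_c11111 : (⟨1, 1, 1, 1, 1⟩ : WeierstrassCurve (ZMod 2)).Δ = 0 := by decide

/-- **Cayley–Hamilton for Frobenius over `F₂`.** -/
theorem frobCharEq_two [Fact (Nat.Prime 2)] (W : WeierstrassCurve (ZMod 2)) (hΔ : W.Δ ≠ 0)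
    (k : Type) [Field k] [Algebra (ZMod 2) k] [IsAlgClosed k] [DecidableEq k]
    (P : (W⁄k).Point) :
    frobPt W k (frobPt W k P) - W.traceOfFrobenius • frobPt W k P + ((2 : ℕ) : ℤ) • P = 0 := by
  rcases zmod_two_cases W.a₁ with e1 | e1 <;> rcases zmod_two_cases W.a₂ with e2 | e2 <;>
    rcases zmod_two_cases W.a₃ with e3 | e3 <;> rcases zmod_two_cases W.a₄ with e4 | e4 <;>
    rcases zmod_two_cases W.a₆ with e6 | e6
  · exact absurd ((disc_eq_of_coeffs W e1 e2 e3 e4 e6).trans disc_c00000) hΔ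
  · exact absurd ((disc_eq_of_coeffs W e1 e2 e3 e4 e6).trans disc_c00001) hΔ
  · exact absurd ((disc_eq_of_coeffs W e1 e2 e3 e4 e6).trans disc_c00010) hΔ
  · exact absurd ((disc_eq_of_coeffs W e1 e2 e3 e4 e6).trans disc_c00011) hΔ
  · exact charEq_c00100 W hΔ k e1 e2 e3 e4 e6 P
  · exact charEq_c00101 W hΔ k e1 e2 e3 e4 e6 P
  · exact charEq_c00110 W hΔ k e1 e2 e3 e4 e6 P
  · exact charEq_c00111 W hΔ k e1 e2 e3 e4 e6 P
  · exact absurd ((disc_eq_of_coeffs W e1 e2 e3 e4 e6).trans disc_c01000) hΔ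
  · exact absurd ((disc_eq_of_coeffs W e1 e2 e3 e4 e6).trans disc_c01001) hΔ
  · exact absurd ((disc_eq_of_coeffs W e1 e2 e3 e4 e6).trans disc_c01010) hΔ
  · exact absurd ((disc_eq_of_coeffs W e1 e2 e3 e4 e6).trans disc_c01011) hΔ
  · exact charEq_c01100 W hΔ k e1 e2 e3 e4 e6 P
  · exact charEq_c01101 W hΔ k e1 e2 e3 e4 e6 P
  · exact charEq_c01110 W hΔ k e1 e2 e3 e4 e6 P
  · exact charEq_c01111 W hΔ k e1 e2 e3 e4 e6 P
  · exact absurd ((disc_eq_of_coeffs W e1 e2 e3 e4 e6).trans disc_c10000) hΔ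
  · exact charEq_c10001 W hΔ k e1 e2 e3 e4 e6 P
  · exact charEq_c10010 W hΔ k e1 e2 e3 e4 e6 P
  · exact absurd ((disc_eq_of_coeffs W e1 e2 e3 e4 e6).trans disc_c10011) hΔ
  · exact absurd ((disc_eq_of_coeffs W e1 e2 e3 e4 e6).trans disc_c10100) hΔ
  · exact charEq_c10101 W hΔ k e1 e2 e3 e4 e6 P
  · exact absurd ((disc_eq_of_coeffs W e1 e2 e3 e4 e6).trans disc_c10110) hΔ
  · exact charEq_c10111 W hΔ k e1 e2 e3 e4 e6 P
  · exact absurd ((disc_eq_of_coeffs W e1 e2 e3 e4 e6).trans disc_c11000) hΔ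
  · exact charEq_c11001 W hΔ k e1 e2 e3 e4 e6 P
  · exact charEq_c11010 W hΔ k e1 e2 e3 e4 e6 P
  · exact absurd ((disc_eq_of_coeffs W e1 e2 e3 e4 e6).trans disc_c11011) hΔ
  · exact charEq_c11100 W hΔ k e1 e2 e3 e4 e6 P
  · exact absurd ((disc_eq_of_coeffs W e1 e2 e3 e4 e6).trans disc_c11101) hΔ
  · exact charEq_c11110 W hΔ k e1 e2 e3 e4 e6 P
  · exact absurd ((disc_eq_of_coeffs W e1 e2 e3 e4 e6).trans disc_c11111) hΔ

end Fermat.Agent.FrobTrace.Char2
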