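import Fermat.Agent.Lib.FrobTrace.Char2.Basic

/-!
# FrobTrace / Char2 / Ord: the ordinary curves over `F₂` (`a₁ = 1`), skeleton
(helper51)

For `P = (x, y)` with `x ∉ {0, 1}`: `Q = φP ∓ P` is given by the chord formula, `2P` by the
tangent formula, and `φ Q = -2P` is a pair of rational identities (`OrdIdPos`, `OrdIdNeg`),
checked curve by curve.  The finitely many other points are handled by translation.
-/

set_option autoImplicit false

open WeierstrassCurve WeierstrassCurve.Affine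

namespace Fermat.Agent.FrobTrace.Char2

open Fermat.Agent.S52 (frobPt)

/-- `x`-coordinate of the third point on a line of slope `m` -/
def cX {k : Type*} [Field k] (a1 a2 x₁ x₂ m : k) : k := m ^ 2 + a1 * m - a2 - x₁ - x₂

/-- `y`-coordinate of the sum, line of slope `m` through `(x₁, y₁)`, sum has `x`-coordinate `X` -/
def cY {k : Type*} [Field k] (a1 a3 x₁ y₁ m X : k) : k := -(m * (X - x₁) + y₁) - a1 * X - a3

/-- `y`-coordinate of the negative -/
def nY {k : Type*} [Field k] (a1 a3 X Y : k) : k := -Y - a1 * X - a3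

/-- `w² = W` from `w D = A` and `W D² = A²` -/
lemma finish_sq1 {k : Type*} [Field k] {w W D A : k} (hD : D ≠ 0) (h1 : w * D = A)
    (h2 : W * D ^ 2 = A ^ 2) : w ^ 2 = W := by
  have key : D ^ 2 * (w ^ 2 - W) = 0 := by
    linear_combination (w * D + A) * h1 - h2
  exact sub_eq_zero.mp ((mul_eq_zero.mp key).resolve_left (pow_ne_zero _ hD))

/-- `w² = W` from `w D² = E` and `W D⁴ = E²` -/
lemma finish_sq2 {k : Type*} [Field k] {w W D E : k} (hD : D ≠ 0) (h1 : w * D ^ 2 = E)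
    (h2 : W * D ^ 4 = E ^ 2) : w ^ 2 = W := by
  have key : D ^ 4 * (w ^ 2 - W) = 0 := by
    linear_combination (w * D ^ 2 + E) * h1 - h2
  exact sub_eq_zero.mp ((mul_eq_zero.mp key).resolve_left (pow_ne_zero _ hD))

/-- identity package, ordinary case, `φ(φP - P) = -2P` (trace `+1`) -/
def OrdIdPos {k : Type*} [Field k] (a1 a2 a3 a4 a6 : k) : Prop :=
  ∀ x y m l : k, y ^ 2 + a1 * x * y + a3 * y = x ^ 3 + a2 * x ^ 2 + a4 * x + a6 →
    x ^ 2 - x ≠ 0 → 2 * y + a1 * x + a3 ≠ 0 →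
    m * (x ^ 2 - x) = y ^ 2 - (-y - a1 * x - a3) →
    l * (2 * y + a1 * x + a3) = 3 * x ^ 2 + 2 * a2 * x + a4 - a1 * y →
    (cX a1 a2 (x ^ 2) x m) ^ 2 = cX a1 a2 x x l ∧
    (cY a1 a3 (x ^ 2) (y ^ 2) m (cX a1 a2 (x ^ 2) x m)) ^ 2
      = nY a1 a3 (cX a1 a2 x x l) (cY a1 a3 x y l (cX a1 a2 x x l))

/-- identity package, ordinary case, `φ(φP + P) = -2P` (trace `-1`) -/
def OrdIdNeg {k : Type*} [Field k] (a1 a2 a3 a4 a6 : k) : Prop :=
  ∀ x y m l : k, y ^ 2 + a1 * x * y + a3 * y = x ^ 3 + a2 * x ^ 2 + a4 * x + a6 →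
    x ^ 2 - x ≠ 0 → 2 * y + a1 * x + a3 ≠ 0 →
    m * (x ^ 2 - x) = y ^ 2 - y →
    l * (2 * y + a1 * x + a3) = 3 * x ^ 2 + 2 * a2 * x + a4 - a1 * y →
    (cX a1 a2 (x ^ 2) x m) ^ 2 = cX a1 a2 x x l ∧
    (cY a1 a3 (x ^ 2) (y ^ 2) m (cX a1 a2 (x ^ 2) x m)) ^ 2
      = nY a1 a3 (cX a1 a2 x x l) (cY a1 a3 x y l (cX a1 a2 x x l))

section Skeleton

variable (W : WeierstrassCurve (ZMod 2))
variable (k : Type*) [Field k] [Algebra (ZMod 2) k] [DecidableEq k]

/-- a homomorphism vanishing at all affine points with `x ∉ {0, 1}` vanishes identically -/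
lemma hom_eq_zero_of_generic [IsAlgClosed k] (hΔ : W.Δ ≠ 0)
    (ψ : (W⁄k).Point →+ (W⁄k).Point)
    (h : ∀ (x y : k) (hxy : (W⁄k).Nonsingular x y), x ≠ 0 → x ≠ 1 →
      ψ (Point.some x y hxy) = 0) (P : (W⁄k).Point) : ψ P = 0 := by
  haveI : Infinite k := IsAlgClosed.instInfinite
  haveI : Infinite (W⁄k).Point :=
    Fermat.Agent.Torsion.infinite_point (baseChange_Δ_ne_zero W hΔ)
  have hfin : ((ψ.ker : Set (W⁄k).Point)ᶜ).Finite := by
    have hS : ({0, 1} : Set k).Finite := Set.toFinite _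
    refine (Fermat.Agent.Torsion.finite_px_mem (W := W⁄k) ({0, 1} : Set k) hS).subset ?_
    intro Q hQ
    rcases Q with _ | ⟨x, y, hxy⟩
    · exfalso
      apply hQ
      change ψ 0 = 0
      exact map_zero ψ
    · refine ⟨Point.some_ne_zero _, ?_⟩
      by_contra hx
      apply hQ
      change ψ (Point.some x y hxy) = 0
      apply h
      · intro h0
        exact hx (Or.inl h0)
      · intro h1
        exact hx (Or.inr h1)
  have htop := Fermat.Agent.Torsion.addSubgroup_eq_top_of_finite_compl ψ.ker hfin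
  have : P ∈ ψ.ker := by rw [htop]; trivial
  exact this

variable {W k}

/-- the generic computation, ordinary case -/
lemma ord_generic (e1 : W.a₁ = 1) (s : Bool)
    (hid : if s then OrdIdPos (W⁄k).a₁ (W⁄k).a₂ (W⁄k).a₃ (W⁄k).a₄ (W⁄k).a₆
      else OrdIdNeg (W⁄k).a₁ (W⁄k).a₂ (W⁄k).a₃ (W⁄k).a₄ (W⁄k).a₆)
    (x y : k) (hxy : (W⁄k).Nonsingular x y) (hx0 : x ≠ 0) (hx1 : x ≠ 1) :
    frobPt W k (frobPt W k (Point.some x y hxy)
        + (if s then -Point.some x y hxy else Point.some x y hxy))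
      + (Point.some x y hxy + Point.some x y hxy) = 0 := by
  have h2 : (2 : k) = 0 := two_eq_zero_of_algebra
  have hC := hxy.1
  rw [Affine.equation_iff] at hC
  have ea1 : (W⁄k).a₁ = 1 := by rw [baseChange_a₁, e1, map_one]
  have hD1 : x ^ 2 - x ≠ 0 := by
    have : x ^ 2 - x = x * (x - 1) := by ring
    rw [this]
    exact mul_ne_zero hx0 (sub_ne_zero.mpr hx1)
  have hD2 : 2 * y + (W⁄k).a₁ * x + (W⁄k).a₃ ≠ 0 := by
    rw [ea1, baseChange_a₃]
    rcases zmod_two_cases W.a₃ with e3 | e3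
    · rw [e3, map_zero]
      intro h0
      apply hx0
      linear_combination h0 - y * h2
    · rw [e3, map_one]
      intro h0
      apply hx1
      linear_combination h0 - (y + 1) * h2
  obtain ⟨h₁, hφ⟩ := frobPt_some_pow W hxy
  obtain ⟨hn, hneg⟩ := neg_some_eq (W⁄k) hxy
  -- the tangent
  set l : k := (3 * x ^ 2 + 2 * (W⁄k).a₂ * x + (W⁄k).a₄ - (W⁄k).a₁ * y)
    / (2 * y + (W⁄k).a₁ * x + (W⁄k).a₃) with hldef
  have hl : l * (2 * y + (W⁄k).a₁ * x + (W⁄k).a₃)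
      = 3 * x ^ 2 + 2 * (W⁄k).a₂ * x + (W⁄k).a₄ - (W⁄k).a₁ * y := by
    rw [hldef, div_mul_cancel₀ _ hD2]
  obtain ⟨h₂, hdbl⟩ := tangent_some (W⁄k) hxy hD2 hl rfl rfl
  cases s with
  | true =>
    simp only [if_true] at hid ⊢
    set m : k := (y ^ 2 - (-y - (W⁄k).a₁ * x - (W⁄k).a₃)) / (x ^ 2 - x) with hmdef
    have hm : m * (x ^ 2 - x) = y ^ 2 - (-y - (W⁄k).a₁ * x - (W⁄k).a₃) := by
      rw [hmdef, div_mul_cancel₀ _ hD1]
    obtain ⟨hQ, hchord⟩ := chord_some (W⁄k) h₁ hn hD1 hm rfl rfl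
    obtain ⟨h₃, hφQ⟩ := frobPt_some_pow W hQ
    obtain ⟨hX, hY⟩ := hid x y m l hC hD1 hD2 hm hl
    rw [hφ, hneg, hchord, hφQ, hdbl]
    exact add_some_eq_zero (W⁄k) h₃ h₂ hX hY
  | false =>
    simp only [Bool.false_eq_true, if_false] at hid ⊢
    set m : k := (y ^ 2 - y) / (x ^ 2 - x) with hmdef
    have hm : m * (x ^ 2 - x) = y ^ 2 - y := by
      rw [hmdef, div_mul_cancel₀ _ hD1]
    obtain ⟨hQ, hchord⟩ := chord_some (W⁄k) h₁ hxy hD1 hm rfl rfl
    obtain ⟨h₃, hφQ⟩ := frobPt_some_pow W hQ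
    obtain ⟨hX, hY⟩ := hid x y m l hC hD1 hD2 hm hl
    rw [hφ, hchord, hφQ, hdbl]
    exact add_some_eq_zero (W⁄k) h₃ h₂ hX hY

/-- ordinary case, trace `+1` -/
theorem ord_pos [IsAlgClosed k] (e1 : W.a₁ = 1) (hΔ : W.Δ ≠ 0)
    (hid : OrdIdPos (W⁄k).a₁ (W⁄k).a₂ (W⁄k).a₃ (W⁄k).a₄ (W⁄k).a₆) (P : (W⁄k).Point) :
    frobPt W k (frobPt W k P) - frobPt W k P + (P + P) = 0 := by
  have key := hom_eq_zero_of_generic W k hΔ
    ((frobPt W k).comp (frobPt W k) - frobPt W k + (AddMonoidHom.id _ + AddMonoidHom.id _))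
    (by
      intro x y hxy hx0 hx1
      have := ord_generic e1 true (by simpa using hid) x y hxy hx0 hx1
      simp only [if_true] at this
      change frobPt W k (frobPt W k (Point.some x y hxy)) - frobPt W k (Point.some x y hxy)
        + (Point.some x y hxy + Point.some x y hxy) = 0
      rw [← this, map_add, map_neg, sub_eq_add_neg]) P
  exact key

/-- ordinary case, trace `-1` -/
theorem ord_neg [IsAlgClosed k] (e1 : W.a₁ = 1) (hΔ : W.Δ ≠ 0)
    (hid : OrdIdNeg (W⁄k).a₁ (W⁄k).a₂ (W⁄k).a₃ (W⁄k).a₄ (W⁄k).a₆) (P : (W⁄k).Point) :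
    frobPt W k (frobPt W k P) + frobPt W k P + (P + P) = 0 := by
  have key := hom_eq_zero_of_generic W k hΔ
    ((frobPt W k).comp (frobPt W k) + frobPt W k + (AddMonoidHom.id _ + AddMonoidHom.id _))
    (by
      intro x y hxy hx0 hx1
      have := ord_generic e1 false (by simpa using hid) x y hxy hx0 hx1
      simp only [Bool.false_eq_true, if_false] at this
      change frobPt W k (frobPt W k (Point.some x y hxy)) + frobPt W k (Point.some x y hxy)
        + (Point.some x y hxy + Point.some x y hxy) = 0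
      rw [← this, map_add]) P
  exact key

end Skeleton

end Fermat.Agent.FrobTrace.Char2
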