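import Fermat.Agent.Lib.FrobTrace.Char2.Ord

/-!
# FrobTrace / Char2 / OrdId: the identity certificates for the 8 ordinary curves over `F₂`
(helper51; generated by a script)

For `Q = φP ∓ P = (X_Q, Y_Q)` and `D = 2y + x + a₃`: `X_Q D = A(x)`, `Y_Q D² = E(x, y)` (chord
formula), and `x(2P) D² = A²`, `y(-2P) D⁴ = E²` (tangent formula), with explicit polynomials
`A`, `E`; each is a `linear_combination` of the slope relation, the curve equation and `2 = 0`.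
-/

set_option autoImplicit false

namespace Fermat.Agent.FrobTrace.Char2

theorem ordId_c10001 {k : Type*} [Field k] (h2 : (2 : k) = 0) :
    OrdIdNeg (1 : k) 0 0 0 1 := by
  unfold OrdIdNeg
  intro x y m l hC hD1 hD2 hm hl
  have h1X : cX 1 0 (x ^ 2) x m * (2 * y + 1 * x + 0) = (x ^ 2 + 1) := by
    have key : (x ^ 2 - x) ^ 2 * (cX 1 0 (x ^ 2) x m * (2 * y + 1 * x + 0) - (x ^ 2 + 1)) = 0 := by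
      simp only [cX]
      linear_combination (x ^ 3 * m + x ^ 3 + x ^ 2 * m + x ^ 2 + x * y ^ 2 + x * y) * hm + (x ^ 4
        + x ^ 2 * y + x ^ 2 + x * y ^ 2) * hC + (-x ^ 6 * y + x ^ 5 * y + 2 * x ^ 5 + x ^ 4 * y * m ^ 2
        + x ^ 4 * y * m + x ^ 4 * y - x ^ 4 * m ^ 2 - x ^ 4 * m - x ^ 4 - 2 * x ^ 3 * y * m ^ 2
        - 3 * x ^ 3 * y * m - 2 * x ^ 3 * y + x ^ 3 * m ^ 2 + x ^ 3 * m + x ^ 3 - x ^ 2 * y ^ 3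
        + x ^ 2 * y ^ 2 * m + x ^ 2 * y * m ^ 2 + x ^ 2 * y * m) * h2
    exact sub_eq_zero.mp ((mul_eq_zero.mp key).resolve_left (pow_ne_zero _ hD1))
  have h1Y : cY 1 0 (x ^ 2) (y ^ 2) m (cX 1 0 (x ^ 2) x m) * (2 * y + 1 * x + 0) ^ 2
      = (x ^ 3 + x ^ 2 * y + x ^ 2 + y + 1) := by
    have key : (x ^ 2 - x) ^ 3 * (cY 1 0 (x ^ 2) (y ^ 2) m (cX 1 0 (x ^ 2) x m) * (2 * y + 1 * x + 0) ^ 2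
        - (x ^ 3 + x ^ 2 * y + x ^ 2 + y + 1)) = 0 := by
      simp only [cX, cY]
      linear_combination (x ^ 7 + x ^ 6 * m ^ 2 + x ^ 6 + x ^ 5 + x ^ 4 * y ^ 2 * m + x ^ 4 * y * m
        + x ^ 4 * m ^ 2 + x ^ 4 + x ^ 3 * y ^ 2 * m + x ^ 3 * y * m + x ^ 2 * y ^ 4 + x ^ 2 * y ^ 2) * hm
        + (x ^ 7 + x ^ 6 + x ^ 5 * y ^ 2 + x ^ 4 * y ^ 2 + x ^ 4 * y + x ^ 4 + x ^ 3 * y ^ 3 + x ^ 3 * y ^ 2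
        + x ^ 3 * y + x ^ 3 + x ^ 2 * y ^ 4 + x ^ 2 * y ^ 3) * hC + (x ^ 10 * m + x ^ 10 + 4 * x ^ 9 * y * m
        + 2 * x ^ 9 * y - 3 * x ^ 9 * m - x ^ 9 + 4 * x ^ 8 * y ^ 2 * m + 2 * x ^ 8 * y ^ 2 - 10 * x ^ 8 * y * m
        - 5 * x ^ 8 * y - x ^ 8 * m ^ 3 - x ^ 8 * m ^ 2 + x ^ 8 * m + x ^ 8 - 2 * x ^ 7 * y ^ 3
        - 10 * x ^ 7 * y ^ 2 * m - 2 * x ^ 7 * y ^ 2 - 2 * x ^ 7 * y * m ^ 3 - 4 * x ^ 7 * y * m ^ 2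
        + 4 * x ^ 7 * y * m + x ^ 7 * y + 2 * x ^ 7 * m ^ 3 + 3 * x ^ 7 * m ^ 2 + 2 * x ^ 7 * m
        + 2 * x ^ 7 - 2 * x ^ 6 * y ^ 4 + 6 * x ^ 6 * y ^ 3 - 2 * x ^ 6 * y ^ 2 * m ^ 3 - 4 * x ^ 6 * y ^ 2 * m ^ 2
        + 4 * x ^ 6 * y ^ 2 * m - x ^ 6 * y ^ 2 + 6 * x ^ 6 * y * m ^ 3 + 11 * x ^ 6 * y * m ^ 2
        + 8 * x ^ 6 * y * m + 2 * x ^ 6 * y - 2 * x ^ 6 * m ^ 3 - 3 * x ^ 6 * m ^ 2 - 2 * x ^ 6 * m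
        - x ^ 6 + 6 * x ^ 5 * y ^ 4 - 6 * x ^ 5 * y ^ 3 + 6 * x ^ 5 * y ^ 2 * m ^ 3 + 12 * x ^ 5 * y ^ 2 * m ^ 2
        + 8 * x ^ 5 * y ^ 2 * m + 5 * x ^ 5 * y ^ 2 - 6 * x ^ 5 * y * m ^ 3 - 12 * x ^ 5 * y * m ^ 2
        - 8 * x ^ 5 * y * m - x ^ 5 * y + x ^ 5 * m ^ 3 + x ^ 5 * m ^ 2 + x ^ 5 * m + 2 * x ^ 5
        - 7 * x ^ 4 * y ^ 4 + x ^ 4 * y ^ 3 - 6 * x ^ 4 * y ^ 2 * m ^ 3 - 11 * x ^ 4 * y ^ 2 * m ^ 2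
        - 9 * x ^ 4 * y ^ 2 * m - 2 * x ^ 4 * y ^ 2 + 2 * x ^ 4 * y * m ^ 3 + 4 * x ^ 4 * y * m ^ 2
        + 2 * x ^ 4 * y * m - 2 * x ^ 4 * y - x ^ 4 - x ^ 3 * y ^ 5 + x ^ 3 * y ^ 4 * m + x ^ 3 * y ^ 4
        + 2 * x ^ 3 * y ^ 2 * m ^ 3 + 4 * x ^ 3 * y ^ 2 * m ^ 2 + 2 * x ^ 3 * y ^ 2 * m + x ^ 3 * y
        + x ^ 3 - x ^ 2 * y ^ 5 + x ^ 2 * y ^ 4) * h2
    exact sub_eq_zero.mp ((mul_eq_zero.mp key).resolve_left (pow_ne_zero _ hD1))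
  have h2X : cX 1 0 x x l * (2 * y + 1 * x + 0) ^ 2 = (x ^ 2 + 1) ^ 2 := by
    simp only [cX]
    linear_combination (x ^ 2 + x * l + x + y) * hl + (1) * hC + (x ^ 4 + x ^ 3 * l + x ^ 3 - x ^ 2 * y * l
      - 3 * x ^ 2 * y - x ^ 2 - 4 * x * y ^ 2 + x * y * l ^ 2 - x * y + 2 * y ^ 2 * l ^ 2 + y ^ 2 * l
      - y ^ 2) * h2
  have h2Y : nY 1 0 (cX 1 0 x x l) (cY 1 0 x y l (cX 1 0 x x l)) * (2 * y + 1 * x + 0) ^ 4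
      = (x ^ 3 + x ^ 2 * y + x ^ 2 + y + 1) ^ 2 := by
    simp only [cX, cY, nY]
    linear_combination (x ^ 5 + x ^ 4 * l + x ^ 3 * l ^ 2 + x ^ 3 * l + x ^ 2 * y * l + x ^ 2 * y
      + x * y ^ 2) * hl + (x ^ 4 + x ^ 3 + x * y + 1) * hC + (2 * x ^ 7 + x ^ 6 * l - x ^ 5 * y * l
      - 2 * x ^ 5 * y + x ^ 5 * l ^ 2 - x ^ 5 - x ^ 4 * y ^ 2 - x ^ 4 * y * l ^ 2 - 11 * x ^ 4 * y * l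
      + x ^ 4 * y - 36 * x ^ 3 * y ^ 2 * l + 5 * x ^ 3 * y ^ 2 + 3 * x ^ 3 * y * l ^ 3 + 2 * x ^ 3 * y * l ^ 2
      - x ^ 3 * y * l - x ^ 3 * y - 48 * x ^ 2 * y ^ 3 * l + 12 * x ^ 2 * y ^ 3 + 12 * x ^ 2 * y ^ 2 * l ^ 3
      + 11 * x ^ 2 * y ^ 2 * l ^ 2 - 2 * x ^ 2 * y ^ 2 * l - 2 * x ^ 2 * y ^ 2 - 2 * x ^ 2 * y
      - x ^ 2 - 24 * x * y ^ 4 * l + 16 * x * y ^ 4 + 16 * x * y ^ 3 * l ^ 3 + 16 * x * y ^ 3 * l ^ 2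
      - x * y ^ 3 * l - x * y ^ 3 + 8 * y ^ 5 + 8 * y ^ 4 * l ^ 3 + 8 * y ^ 4 * l ^ 2 - y ^ 2 - y) * h2
  exact ⟨finish_sq1 hD2 h1X h2X, finish_sq2 hD2 h1Y h2Y⟩

theorem ordId_c10010 {k : Type*} [Field k] (h2 : (2 : k) = 0) :
    OrdIdNeg (1 : k) 0 0 1 0 := by
  unfold OrdIdNeg
  intro x y m l hC hD1 hD2 hm hl
  have h1X : cX 1 0 (x ^ 2) x m * (2 * y + 1 * x + 0) = (x ^ 2 + 1) := by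
    have key : (x ^ 2 - x) ^ 2 * (cX 1 0 (x ^ 2) x m * (2 * y + 1 * x + 0) - (x ^ 2 + 1)) = 0 := by
      simp only [cX]
      linear_combination (x ^ 3 * m + x ^ 3 + x ^ 2 * m + x ^ 2 + x * y ^ 2 + x * y) * hm + (x ^ 4
        + x ^ 2 * y + x * y ^ 2 + x) * hC + (-x ^ 6 * y + x ^ 5 * y + 2 * x ^ 5 + x ^ 4 * y * m ^ 2
        + x ^ 4 * y * m + x ^ 4 * y - x ^ 4 * m ^ 2 - x ^ 4 * m - x ^ 4 - 2 * x ^ 3 * y * m ^ 2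
        - 3 * x ^ 3 * y * m - x ^ 3 * y + x ^ 3 * m ^ 2 + x ^ 3 * m + x ^ 3 - x ^ 2 * y ^ 3 + x ^ 2 * y ^ 2 * m
        + x ^ 2 * y ^ 2 + x ^ 2 * y * m ^ 2 + x ^ 2 * y * m - x ^ 2 * y - x * y ^ 2) * h2
    exact sub_eq_zero.mp ((mul_eq_zero.mp key).resolve_left (pow_ne_zero _ hD1))
  have h1Y : cY 1 0 (x ^ 2) (y ^ 2) m (cX 1 0 (x ^ 2) x m) * (2 * y + 1 * x + 0) ^ 2
      = (x ^ 3 + x ^ 2 * y + x ^ 2 + y) := by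
    have key : (x ^ 2 - x) ^ 3 * (cY 1 0 (x ^ 2) (y ^ 2) m (cX 1 0 (x ^ 2) x m) * (2 * y + 1 * x + 0) ^ 2
        - (x ^ 3 + x ^ 2 * y + x ^ 2 + y)) = 0 := by
      simp only [cX, cY]
      linear_combination (x ^ 7 + x ^ 6 * m ^ 2 + x ^ 6 + x ^ 5 + x ^ 4 * y ^ 2 * m + x ^ 4 * y * m
        + x ^ 4 * m ^ 2 + x ^ 4 + x ^ 3 * y ^ 2 * m + x ^ 3 * y * m + x ^ 2 * y ^ 4 + x ^ 2 * y ^ 2) * hm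
        + (x ^ 7 + x ^ 6 + x ^ 5 * y ^ 2 + x ^ 5 + x ^ 4 * y ^ 2 + x ^ 4 * y + x ^ 4 + x ^ 3 * y ^ 3
        + x ^ 2 * y ^ 4 + x ^ 2 * y ^ 3 + x ^ 2 * y ^ 2 + x ^ 2 * y) * hC + (x ^ 10 * m + x ^ 10
        + 4 * x ^ 9 * y * m + 2 * x ^ 9 * y - 3 * x ^ 9 * m - x ^ 9 + 4 * x ^ 8 * y ^ 2 * m + 2 * x ^ 8 * y ^ 2
        - 10 * x ^ 8 * y * m - 5 * x ^ 8 * y - x ^ 8 * m ^ 3 - x ^ 8 * m ^ 2 + x ^ 8 * m + 2 * x ^ 8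
        - 2 * x ^ 7 * y ^ 3 - 10 * x ^ 7 * y ^ 2 * m - 2 * x ^ 7 * y ^ 2 - 2 * x ^ 7 * y * m ^ 3
        - 4 * x ^ 7 * y * m ^ 2 + 4 * x ^ 7 * y * m + x ^ 7 * y + 2 * x ^ 7 * m ^ 3 + 3 * x ^ 7 * m ^ 2
        + 2 * x ^ 7 * m + 2 * x ^ 7 - 2 * x ^ 6 * y ^ 4 + 6 * x ^ 6 * y ^ 3 - 2 * x ^ 6 * y ^ 2 * m ^ 3
        - 4 * x ^ 6 * y ^ 2 * m ^ 2 + 4 * x ^ 6 * y ^ 2 * m - x ^ 6 * y ^ 2 + 6 * x ^ 6 * y * m ^ 3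
        + 11 * x ^ 6 * y * m ^ 2 + 8 * x ^ 6 * y * m + x ^ 6 * y - 2 * x ^ 6 * m ^ 3 - 3 * x ^ 6 * m ^ 2
        - 2 * x ^ 6 * m - x ^ 6 + 6 * x ^ 5 * y ^ 4 - 6 * x ^ 5 * y ^ 3 + 6 * x ^ 5 * y ^ 2 * m ^ 3
        + 12 * x ^ 5 * y ^ 2 * m ^ 2 + 8 * x ^ 5 * y ^ 2 * m + 5 * x ^ 5 * y ^ 2 - 6 * x ^ 5 * y * m ^ 3
        - 12 * x ^ 5 * y * m ^ 2 - 8 * x ^ 5 * y * m + x ^ 5 * m ^ 3 + x ^ 5 * m ^ 2 + x ^ 5 * m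
        + x ^ 5 - 7 * x ^ 4 * y ^ 4 + 2 * x ^ 4 * y ^ 3 - 6 * x ^ 4 * y ^ 2 * m ^ 3 - 11 * x ^ 4 * y ^ 2 * m ^ 2
        - 9 * x ^ 4 * y ^ 2 * m - 2 * x ^ 4 * y ^ 2 + 2 * x ^ 4 * y * m ^ 3 + 4 * x ^ 4 * y * m ^ 2
        + 2 * x ^ 4 * y * m - 2 * x ^ 4 * y - x ^ 3 * y ^ 5 + x ^ 3 * y ^ 4 * m + 2 * x ^ 3 * y ^ 4
        + 2 * x ^ 3 * y ^ 2 * m ^ 3 + 4 * x ^ 3 * y ^ 2 * m ^ 2 + 2 * x ^ 3 * y ^ 2 * m + x ^ 3 * y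
        - x ^ 2 * y ^ 5 - x ^ 2 * y ^ 3) * h2
    exact sub_eq_zero.mp ((mul_eq_zero.mp key).resolve_left (pow_ne_zero _ hD1))
  have h2X : cX 1 0 x x l * (2 * y + 1 * x + 0) ^ 2 = (x ^ 2 + 1) ^ 2 := by
    simp only [cX]
    linear_combination (x ^ 2 + x * l + x + y + 1) * hl + (1) * hC + (x ^ 4 + x ^ 3 * l + x ^ 3
      - x ^ 2 * y * l - 3 * x ^ 2 * y + x ^ 2 - 4 * x * y ^ 2 + x * y * l ^ 2 - x * y + x + 2 * y ^ 2 * l ^ 2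
      + y ^ 2 * l - y ^ 2 - y * l) * h2
  have h2Y : nY 1 0 (cX 1 0 x x l) (cY 1 0 x y l (cX 1 0 x x l)) * (2 * y + 1 * x + 0) ^ 4
      = (x ^ 3 + x ^ 2 * y + x ^ 2 + y) ^ 2 := by
    simp only [cX, cY, nY]
    linear_combination (x ^ 5 + x ^ 4 * l + x ^ 3 * l ^ 2 + x ^ 3 * l + x ^ 2 * y * l + x ^ 2 * y
      + x ^ 2 * l + x ^ 2 + x * y ^ 2 + x) * hl + (x ^ 4 + x ^ 3 + x * y + x + 1) * hC + (2 * x ^ 7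
      + x ^ 6 * l - x ^ 5 * y * l - 2 * x ^ 5 * y + x ^ 5 * l ^ 2 - x ^ 4 * y ^ 2 - x ^ 4 * y * l ^ 2
      - 11 * x ^ 4 * y * l + x ^ 4 * y + 2 * x ^ 4 * l + 2 * x ^ 4 - 36 * x ^ 3 * y ^ 2 * l + 5 * x ^ 3 * y ^ 2
      + 3 * x ^ 3 * y * l ^ 3 + 2 * x ^ 3 * y * l ^ 2 - x ^ 3 * y * l - x ^ 3 * y + 2 * x ^ 3 - 48 * x ^ 2 * y ^ 3 * l
      + 12 * x ^ 2 * y ^ 3 + 12 * x ^ 2 * y ^ 2 * l ^ 3 + 11 * x ^ 2 * y ^ 2 * l ^ 2 - 2 * x ^ 2 * y ^ 2 * l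
      - 2 * x ^ 2 * y ^ 2 - x ^ 2 * y * l ^ 2 - x ^ 2 * y * l - x ^ 2 * y + x ^ 2 - 24 * x * y ^ 4 * l
      + 16 * x * y ^ 4 + 16 * x * y ^ 3 * l ^ 3 + 16 * x * y ^ 3 * l ^ 2 - x * y ^ 3 * l - x * y ^ 3
      - x * y * l - x * y + x + 8 * y ^ 5 + 8 * y ^ 4 * l ^ 3 + 8 * y ^ 4 * l ^ 2 - y ^ 2) * h2
  exact ⟨finish_sq1 hD2 h1X h2X, finish_sq2 hD2 h1Y h2Y⟩

theorem ordId_c10101 {k : Type*} [Field k] (h2 : (2 : k) = 0) :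
    OrdIdPos (1 : k) 0 1 0 1 := by
  unfold OrdIdPos
  intro x y m l hC hD1 hD2 hm hl
  have h1X : cX 1 0 (x ^ 2) x m * (2 * y + 1 * x + 1) = (x ^ 2 + x + 1) := by
    have key : (x ^ 2 - x) ^ 2 * (cX 1 0 (x ^ 2) x m * (2 * y + 1 * x + 1) - (x ^ 2 + x + 1)) = 0 := by
      simp only [cX]
      linear_combination (x ^ 3 * m + x ^ 3 + x ^ 2 + x * y ^ 2 + x * y + x * m + x + y ^ 2 + y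
        + 1) * hm + (x ^ 4 + x ^ 3 + x ^ 2 * y + x ^ 2 + x * y ^ 2 + y ^ 2 + y + 1) * hC + (-x ^ 6 * y
        + x ^ 5 * y + 2 * x ^ 5 + x ^ 4 * y * m ^ 2 + x ^ 4 * y * m + x ^ 4 - 2 * x ^ 3 * y * m ^ 2
        - 2 * x ^ 3 * y * m - x ^ 3 * y - x ^ 3 * m ^ 2 + 2 * x ^ 3 - x ^ 2 * y ^ 3 + x ^ 2 * y * m ^ 2
        + x ^ 2 * y * m + x ^ 2 * y + x ^ 2 * m ^ 2 + x ^ 2 * m + x ^ 2 + x * y ^ 2 * m + 2 * x * y ^ 2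
        + x * y * m + x * y + x * m + x + y ^ 2 + y + 1) * h2
    exact sub_eq_zero.mp ((mul_eq_zero.mp key).resolve_left (pow_ne_zero _ hD1))
  have h1Y : cY 1 1 (x ^ 2) (y ^ 2) m (cX 1 0 (x ^ 2) x m) * (2 * y + 1 * x + 1) ^ 2
      = (x ^ 2 * y + x ^ 2 + x) := by
    have key : (x ^ 2 - x) ^ 3 * (cY 1 1 (x ^ 2) (y ^ 2) m (cX 1 0 (x ^ 2) x m) * (2 * y + 1 * x + 1) ^ 2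
        - (x ^ 2 * y + x ^ 2 + x)) = 0 := by
      simp only [cX, cY]
      linear_combination (x ^ 7 + x ^ 6 * m ^ 2 + x ^ 6 + x ^ 5 * m + x ^ 4 * y ^ 2 * m + x ^ 4 * y * m
        + x ^ 4 + x ^ 3 * y ^ 2 * m + x ^ 3 * y * m + x ^ 3 + x ^ 2 * y ^ 4 + x ^ 2 * y ^ 2 * m
        + x ^ 2 * y ^ 2 + x ^ 2 * y * m + x ^ 2 * m ^ 2 + x ^ 2 + x * y ^ 2 * m + x * y * m + x * m
        + y ^ 4 + y ^ 2 + 1) * hm + (x ^ 7 + x ^ 5 * y ^ 2 + x ^ 4 * y ^ 2 + x ^ 4 * y + x ^ 3 * y ^ 3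
        + x ^ 3 * y ^ 2 + x ^ 2 * y ^ 4 + x ^ 2 * y + x ^ 2 + x * y ^ 3 + x + y ^ 4 + y ^ 2 + 1) * hC
        + (x ^ 10 * m + x ^ 10 + 4 * x ^ 9 * y * m + 2 * x ^ 9 * y - x ^ 9 * m + 4 * x ^ 8 * y ^ 2 * m
        + 2 * x ^ 8 * y ^ 2 - 6 * x ^ 8 * y * m - 3 * x ^ 8 * y - x ^ 8 * m ^ 3 - x ^ 8 * m ^ 2
        - 3 * x ^ 8 * m - 2 * x ^ 8 - 2 * x ^ 7 * y ^ 3 - 10 * x ^ 7 * y ^ 2 * m - 3 * x ^ 7 * y ^ 2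
        - 2 * x ^ 7 * y * m ^ 3 - 4 * x ^ 7 * y * m ^ 2 - 6 * x ^ 7 * y * m - 4 * x ^ 7 * y + x ^ 7 * m ^ 3
        + x ^ 7 * m ^ 2 + 2 * x ^ 7 * m + 3 * x ^ 7 - 2 * x ^ 6 * y ^ 4 + 4 * x ^ 6 * y ^ 3 - 2 * x ^ 6 * y ^ 2 * m ^ 3
        - 4 * x ^ 6 * y ^ 2 * m ^ 2 + 4 * x ^ 6 * y ^ 2 * m + 4 * x ^ 6 * y * m ^ 3 + 8 * x ^ 6 * y * m ^ 2
        + 12 * x ^ 6 * y * m + 7 * x ^ 6 * y + x ^ 6 * m ^ 3 + 3 * x ^ 6 * m ^ 2 + 3 * x ^ 6 * m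
        + 3 * x ^ 6 + 6 * x ^ 5 * y ^ 4 - x ^ 5 * y ^ 3 + 6 * x ^ 5 * y ^ 2 * m ^ 3 + 12 * x ^ 5 * y ^ 2 * m ^ 2
        + 9 * x ^ 5 * y ^ 2 * m + 9 * x ^ 5 * y ^ 2 + x ^ 5 * y * m + 3 * x ^ 5 * y - x ^ 5 * m ^ 3
        - 2 * x ^ 5 * m ^ 2 - x ^ 5 * m - x ^ 5 - 7 * x ^ 4 * y ^ 4 + x ^ 4 * y ^ 3 * m - 5 * x ^ 4 * y ^ 3
        - 6 * x ^ 4 * y ^ 2 * m ^ 3 - 12 * x ^ 4 * y ^ 2 * m ^ 2 - 7 * x ^ 4 * y ^ 2 * m - 8 * x ^ 4 * y ^ 2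
        - 4 * x ^ 4 * y * m ^ 3 - 8 * x ^ 4 * y * m ^ 2 - 5 * x ^ 4 * y * m - 5 * x ^ 4 * y - x ^ 4 * m ^ 3
        - x ^ 4 * m ^ 2 - x ^ 4 * m + x ^ 4 - x ^ 3 * y ^ 5 + x ^ 3 * y ^ 4 * m + 2 * x ^ 3 * y ^ 4
        + x ^ 3 * y ^ 3 * m + 2 * x ^ 3 * y ^ 3 + 2 * x ^ 3 * y ^ 2 * m ^ 3 + 4 * x ^ 3 * y ^ 2 * m ^ 2
        + 4 * x ^ 3 * y ^ 2 * m + 4 * x ^ 3 * y ^ 2 + 2 * x ^ 3 * y * m ^ 3 + 4 * x ^ 3 * y * m ^ 2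
        + 3 * x ^ 3 * y * m + 2 * x ^ 3 * y + x ^ 3 * m ^ 3 + x ^ 3 * m ^ 2 + x ^ 3 * m + 2 * x ^ 3
        + x ^ 2 * y ^ 4 + x ^ 2 * y ^ 3 * m + x ^ 2 * y ^ 2 * m ^ 2 + x ^ 2 * y ^ 2 * m + x ^ 2 * y * m ^ 2
        + x ^ 2 * y * m + x ^ 2 * m ^ 2 + x ^ 2 - x * y ^ 5 + x * y ^ 4 * m + x * y ^ 3 * m + 2 * x * y ^ 2 * m
        + x * y * m - x * y + x * m + x + y ^ 4 + y ^ 2 + 1) * h2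
    exact sub_eq_zero.mp ((mul_eq_zero.mp key).resolve_left (pow_ne_zero _ hD1))
  have h2X : cX 1 0 x x l * (2 * y + 1 * x + 1) ^ 2 = (x ^ 2 + x + 1) ^ 2 := by
    simp only [cX]
    linear_combination (x ^ 2 + x * l + x + y + l + 1) * hl + (1) * hC + (x ^ 4 + x ^ 3 * l - x ^ 2 * y * l
      - 3 * x ^ 2 * y + x ^ 2 * l - 2 * x ^ 2 - 4 * x * y ^ 2 + x * y * l ^ 2 - 5 * x * y - 2 * x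
      + 2 * y ^ 2 * l ^ 2 + y ^ 2 * l - y ^ 2 + y * l ^ 2 - y) * h2
  have h2Y : nY 1 1 (cX 1 0 x x l) (cY 1 1 x y l (cX 1 0 x x l)) * (2 * y + 1 * x + 1) ^ 4
      = (x ^ 2 * y + x ^ 2 + x) ^ 2 := by
    simp only [cX, cY, nY]
    linear_combination (x ^ 5 + x ^ 4 * l + x ^ 4 + x ^ 3 * l ^ 2 + x ^ 3 * l + x ^ 3 + x ^ 2 * y * l
      + x ^ 2 * y + x ^ 2 * l ^ 2 + x * y ^ 2 + x * l ^ 2 + x * l + x + y ^ 2 + y * l + y + l ^ 2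
      + l) * hl + (x ^ 4 + x ^ 3 + x ^ 2 + x * y + y) * hC + (2 * x ^ 7 + x ^ 6 * l + 2 * x ^ 6
      - x ^ 5 * y * l - x ^ 5 * y + x ^ 5 * l ^ 2 - x ^ 5 * l + 2 * x ^ 5 - x ^ 4 * y ^ 2 - x ^ 4 * y * l ^ 2
      - 12 * x ^ 4 * y * l + x ^ 4 * l ^ 2 - 7 * x ^ 4 * l - 36 * x ^ 3 * y ^ 2 * l + 5 * x ^ 3 * y ^ 2
      + 3 * x ^ 3 * y * l ^ 3 + 2 * x ^ 3 * y * l ^ 2 - 38 * x ^ 3 * y * l + x ^ 3 * l ^ 3 + 3 * x ^ 3 * l ^ 2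
      - 8 * x ^ 3 * l + x ^ 3 - 48 * x ^ 2 * y ^ 3 * l + 12 * x ^ 2 * y ^ 3 + 12 * x ^ 2 * y ^ 2 * l ^ 3
      + 11 * x ^ 2 * y ^ 2 * l ^ 2 - 74 * x ^ 2 * y ^ 2 * l + 12 * x ^ 2 * y ^ 2 + 11 * x ^ 2 * y * l ^ 3
      + 11 * x ^ 2 * y * l ^ 2 - 35 * x ^ 2 * y * l + 4 * x ^ 2 * y + 2 * x ^ 2 * l ^ 3 + 4 * x ^ 2 * l ^ 2
      - 5 * x ^ 2 * l - 24 * x * y ^ 4 * l + 16 * x * y ^ 4 + 16 * x * y ^ 3 * l ^ 3 + 16 * x * y ^ 3 * l ^ 2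
      - 49 * x * y ^ 3 * l + 23 * x * y ^ 3 + 24 * x * y ^ 2 * l ^ 3 + 24 * x * y ^ 2 * l ^ 2 - 37 * x * y ^ 2 * l
      + 11 * x * y ^ 2 + 11 * x * y * l ^ 3 + 10 * x * y * l ^ 2 - 14 * x * y * l + 2 * x * y + x * l ^ 3
      + x * l ^ 2 - 2 * x * l + 8 * y ^ 5 + 8 * y ^ 4 * l ^ 3 + 8 * y ^ 4 * l ^ 2 + 16 * y ^ 4
      + 16 * y ^ 3 * l ^ 3 + 16 * y ^ 3 * l ^ 2 - y ^ 3 * l + 11 * y ^ 3 + 12 * y ^ 2 * l ^ 3 + 11 * y ^ 2 * l ^ 2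
      - 2 * y ^ 2 * l + 3 * y ^ 2 + 3 * y * l ^ 3 + 2 * y * l ^ 2 - y * l + y) * h2
  exact ⟨finish_sq1 hD2 h1X h2X, finish_sq2 hD2 h1Y h2Y⟩

theorem ordId_c10111 {k : Type*} [Field k] (h2 : (2 : k) = 0) :
    OrdIdPos (1 : k) 0 1 1 1 := by
  unfold OrdIdPos
  intro x y m l hC hD1 hD2 hm hl
  have h1X : cX 1 0 (x ^ 2) x m * (2 * y + 1 * x + 1) = (x ^ 2 + x + 1) := by
    have key : (x ^ 2 - x) ^ 2 * (cX 1 0 (x ^ 2) x m * (2 * y + 1 * x + 1) - (x ^ 2 + x + 1)) = 0 := by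
      simp only [cX]
      linear_combination (x ^ 3 * m + x ^ 3 + x ^ 2 + x * y ^ 2 + x * y + x * m + x + y ^ 2 + y
        + 1) * hm + (x ^ 4 + x ^ 3 + x ^ 2 * y + x * y ^ 2 + x + y ^ 2 + y + 1) * hC + (-x ^ 6 * y
        + x ^ 5 * y + 2 * x ^ 5 + x ^ 4 * y * m ^ 2 + x ^ 4 * y * m + 2 * x ^ 4 - 2 * x ^ 3 * y * m ^ 2
        - 2 * x ^ 3 * y * m - x ^ 3 * m ^ 2 + 2 * x ^ 3 - x ^ 2 * y ^ 3 + x ^ 2 * y ^ 2 + x ^ 2 * y * m ^ 2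
        + x ^ 2 * y * m + x ^ 2 * y + x ^ 2 * m ^ 2 + x ^ 2 * m + x ^ 2 + x * y ^ 2 * m + 2 * x * y ^ 2
        + x * y * m + x * y + x * m + 2 * x + y ^ 2 + y + 1) * h2
    exact sub_eq_zero.mp ((mul_eq_zero.mp key).resolve_left (pow_ne_zero _ hD1))
  have h1Y : cY 1 1 (x ^ 2) (y ^ 2) m (cX 1 0 (x ^ 2) x m) * (2 * y + 1 * x + 1) ^ 2
      = (x ^ 2 * y + x ^ 2 + x + 1) := by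
    have key : (x ^ 2 - x) ^ 3 * (cY 1 1 (x ^ 2) (y ^ 2) m (cX 1 0 (x ^ 2) x m) * (2 * y + 1 * x + 1) ^ 2
        - (x ^ 2 * y + x ^ 2 + x + 1)) = 0 := by
      simp only [cX, cY]
      linear_combination (x ^ 7 + x ^ 6 * m ^ 2 + x ^ 6 + x ^ 5 * m + x ^ 4 * y ^ 2 * m + x ^ 4 * y * m
        + x ^ 4 + x ^ 3 * y ^ 2 * m + x ^ 3 * y * m + x ^ 3 + x ^ 2 * y ^ 4 + x ^ 2 * y ^ 2 * m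
        + x ^ 2 * y ^ 2 + x ^ 2 * y * m + x ^ 2 * m ^ 2 + x ^ 2 + x * y ^ 2 * m + x * y * m + x * m
        + y ^ 4 + y ^ 2 + 1) * hm + (x ^ 7 + x ^ 5 * y ^ 2 + x ^ 5 + x ^ 4 * y ^ 2 + x ^ 4 * y
        + x ^ 3 * y ^ 3 + x ^ 3 * y + x ^ 2 * y ^ 4 + x ^ 2 * y + x ^ 2 + x * y ^ 3 + x * y ^ 2
        + x * y + y ^ 4 + y ^ 2 + 1) * hC + (x ^ 10 * m + x ^ 10 + 4 * x ^ 9 * y * m + 2 * x ^ 9 * y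
        - x ^ 9 * m + 4 * x ^ 8 * y ^ 2 * m + 2 * x ^ 8 * y ^ 2 - 6 * x ^ 8 * y * m - 3 * x ^ 8 * y
        - x ^ 8 * m ^ 3 - x ^ 8 * m ^ 2 - 3 * x ^ 8 * m - x ^ 8 - 2 * x ^ 7 * y ^ 3 - 10 * x ^ 7 * y ^ 2 * m
        - 3 * x ^ 7 * y ^ 2 - 2 * x ^ 7 * y * m ^ 3 - 4 * x ^ 7 * y * m ^ 2 - 6 * x ^ 7 * y * m
        - 4 * x ^ 7 * y + x ^ 7 * m ^ 3 + x ^ 7 * m ^ 2 + 2 * x ^ 7 * m + 3 * x ^ 7 - 2 * x ^ 6 * y ^ 4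
        + 4 * x ^ 6 * y ^ 3 - 2 * x ^ 6 * y ^ 2 * m ^ 3 - 4 * x ^ 6 * y ^ 2 * m ^ 2 + 4 * x ^ 6 * y ^ 2 * m
        + 4 * x ^ 6 * y * m ^ 3 + 8 * x ^ 6 * y * m ^ 2 + 12 * x ^ 6 * y * m + 7 * x ^ 6 * y + x ^ 6 * m ^ 3
        + 3 * x ^ 6 * m ^ 2 + 3 * x ^ 6 * m + 3 * x ^ 6 + 6 * x ^ 5 * y ^ 4 - x ^ 5 * y ^ 3 + 6 * x ^ 5 * y ^ 2 * m ^ 3
        + 12 * x ^ 5 * y ^ 2 * m ^ 2 + 9 * x ^ 5 * y ^ 2 * m + 9 * x ^ 5 * y ^ 2 + x ^ 5 * y * m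
        + 3 * x ^ 5 * y - x ^ 5 * m ^ 3 - 2 * x ^ 5 * m ^ 2 - x ^ 5 * m + x ^ 5 - 7 * x ^ 4 * y ^ 4
        + x ^ 4 * y ^ 3 * m - 4 * x ^ 4 * y ^ 3 - 6 * x ^ 4 * y ^ 2 * m ^ 3 - 12 * x ^ 4 * y ^ 2 * m ^ 2
        - 7 * x ^ 4 * y ^ 2 * m - 8 * x ^ 4 * y ^ 2 - 4 * x ^ 4 * y * m ^ 3 - 8 * x ^ 4 * y * m ^ 2
        - 5 * x ^ 4 * y * m - 4 * x ^ 4 * y - x ^ 4 * m ^ 3 - x ^ 4 * m ^ 2 - x ^ 4 * m - x ^ 4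
        - x ^ 3 * y ^ 5 + x ^ 3 * y ^ 4 * m + 3 * x ^ 3 * y ^ 4 + x ^ 3 * y ^ 3 * m + 2 * x ^ 3 * y ^ 3
        + 2 * x ^ 3 * y ^ 2 * m ^ 3 + 4 * x ^ 3 * y ^ 2 * m ^ 2 + 4 * x ^ 3 * y ^ 2 * m + 3 * x ^ 3 * y ^ 2
        + 2 * x ^ 3 * y * m ^ 3 + 4 * x ^ 3 * y * m ^ 2 + 3 * x ^ 3 * y * m + 3 * x ^ 3 * y + x ^ 3 * m ^ 3
        + x ^ 3 * m ^ 2 + x ^ 3 * m + 3 * x ^ 3 + x ^ 2 * y ^ 4 + x ^ 2 * y ^ 3 * m + x ^ 2 * y ^ 2 * m ^ 2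
        + x ^ 2 * y ^ 2 * m + x ^ 2 * y * m ^ 2 + x ^ 2 * y * m + x ^ 2 * y + x ^ 2 * m ^ 2 + x ^ 2
        - x * y ^ 5 + x * y ^ 4 * m + x * y ^ 3 * m - x * y ^ 3 + 2 * x * y ^ 2 * m + x * y ^ 2
        + x * y * m + x * m + x + y ^ 4 + y ^ 2 + 1) * h2
    exact sub_eq_zero.mp ((mul_eq_zero.mp key).resolve_left (pow_ne_zero _ hD1))
  have h2X : cX 1 0 x x l * (2 * y + 1 * x + 1) ^ 2 = (x ^ 2 + x + 1) ^ 2 := by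
    simp only [cX]
    linear_combination (x ^ 2 + x * l + x + y + l) * hl + (1) * hC + (x ^ 4 + x ^ 3 * l - x ^ 2 * y * l
      - 3 * x ^ 2 * y + x ^ 2 * l - 3 * x ^ 2 - 4 * x * y ^ 2 + x * y * l ^ 2 - 5 * x * y + x * l
      - x + 2 * y ^ 2 * l ^ 2 + y ^ 2 * l - y ^ 2 + y * l ^ 2 + y * l + l) * h2
  have h2Y : nY 1 1 (cX 1 0 x x l) (cY 1 1 x y l (cX 1 0 x x l)) * (2 * y + 1 * x + 1) ^ 4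
      = (x ^ 2 * y + x ^ 2 + x + 1) ^ 2 := by
    simp only [cX, cY, nY]
    linear_combination (x ^ 5 + x ^ 4 * l + x ^ 4 + x ^ 3 * l ^ 2 + x ^ 3 * l + x ^ 3 + x ^ 2 * y * l
      + x ^ 2 * y + x ^ 2 * l ^ 2 + x ^ 2 * l + x ^ 2 + x * y ^ 2 + x * l ^ 2 + x * l + y ^ 2 + y * l
      + y + l ^ 2) * hl + (x ^ 4 + x ^ 3 + x ^ 2 + x * y + x + y + 1) * hC + (2 * x ^ 7 + x ^ 6 * l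
      + 2 * x ^ 6 - x ^ 5 * y * l - x ^ 5 * y + x ^ 5 * l ^ 2 - x ^ 5 * l + 3 * x ^ 5 - x ^ 4 * y ^ 2
      - x ^ 4 * y * l ^ 2 - 12 * x ^ 4 * y * l + x ^ 4 * l ^ 2 - 5 * x ^ 4 * l + 3 * x ^ 4 - 36 * x ^ 3 * y ^ 2 * l
      + 5 * x ^ 3 * y ^ 2 + 3 * x ^ 3 * y * l ^ 3 + 2 * x ^ 3 * y * l ^ 2 - 38 * x ^ 3 * y * l
      + x ^ 3 * l ^ 3 + 3 * x ^ 3 * l ^ 2 - 8 * x ^ 3 * l + x ^ 3 - 48 * x ^ 2 * y ^ 3 * l + 12 * x ^ 2 * y ^ 3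
      + 12 * x ^ 2 * y ^ 2 * l ^ 3 + 11 * x ^ 2 * y ^ 2 * l ^ 2 - 74 * x ^ 2 * y ^ 2 * l + 12 * x ^ 2 * y ^ 2
      + 11 * x ^ 2 * y * l ^ 3 + 10 * x ^ 2 * y * l ^ 2 - 36 * x ^ 2 * y * l + 3 * x ^ 2 * y + 2 * x ^ 2 * l ^ 3
      + 4 * x ^ 2 * l ^ 2 - 6 * x ^ 2 * l - 24 * x * y ^ 4 * l + 16 * x * y ^ 4 + 16 * x * y ^ 3 * l ^ 3
      + 16 * x * y ^ 3 * l ^ 2 - 49 * x * y ^ 3 * l + 23 * x * y ^ 3 + 24 * x * y ^ 2 * l ^ 3 + 24 * x * y ^ 2 * l ^ 2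
      - 37 * x * y ^ 2 * l + 11 * x * y ^ 2 + 11 * x * y * l ^ 3 + 10 * x * y * l ^ 2 - 13 * x * y * l
      + 2 * x * y + x * l ^ 3 + 2 * x * l ^ 2 - x * l + 8 * y ^ 5 + 8 * y ^ 4 * l ^ 3 + 8 * y ^ 4 * l ^ 2
      + 16 * y ^ 4 + 16 * y ^ 3 * l ^ 3 + 16 * y ^ 3 * l ^ 2 - y ^ 3 * l + 11 * y ^ 3 + 12 * y ^ 2 * l ^ 3
      + 11 * y ^ 2 * l ^ 2 - 2 * y ^ 2 * l + 3 * y ^ 2 + 3 * y * l ^ 3 + 3 * y * l ^ 2 + y + l ^ 2) * h2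
  exact ⟨finish_sq1 hD2 h1X h2X, finish_sq2 hD2 h1Y h2Y⟩

theorem ordId_c11001 {k : Type*} [Field k] (h2 : (2 : k) = 0) :
    OrdIdPos (1 : k) 1 0 0 1 := by
  unfold OrdIdPos
  intro x y m l hC hD1 hD2 hm hl
  have h1X : cX 1 1 (x ^ 2) x m * (2 * y + 1 * x + 0) = (x ^ 2 + 1) := by
    have key : (x ^ 2 - x) ^ 2 * (cX 1 1 (x ^ 2) x m * (2 * y + 1 * x + 0) - (x ^ 2 + 1)) = 0 := by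
      simp only [cX]
      linear_combination (x ^ 3 * m + x ^ 3 + x ^ 2 * m + x * y ^ 2 + x * y) * hm + (x ^ 4 + x ^ 3
        + x ^ 2 * y + x ^ 2 + x * y ^ 2) * hC + (-x ^ 6 * y + x ^ 6 + x ^ 5 * y + 2 * x ^ 5 + x ^ 4 * y * m ^ 2
        + x ^ 4 * y * m - x ^ 4 * m ^ 2 + x ^ 4 - 2 * x ^ 3 * y * m ^ 2 - 2 * x ^ 3 * y * m + x ^ 3 * y
        + x ^ 3 * m ^ 2 + x ^ 3 * m + x ^ 3 - x ^ 2 * y ^ 3 + x ^ 2 * y ^ 2 * m + x ^ 2 * y * m ^ 2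
        + 2 * x ^ 2 * y * m + x * y ^ 3 + x * y ^ 2) * h2
    exact sub_eq_zero.mp ((mul_eq_zero.mp key).resolve_left (pow_ne_zero _ hD1))
  have h1Y : cY 1 0 (x ^ 2) (y ^ 2) m (cX 1 1 (x ^ 2) x m) * (2 * y + 1 * x + 0) ^ 2
      = (x ^ 2 * y + x ^ 2 + x + y + 1) := by
    have key : (x ^ 2 - x) ^ 3 * (cY 1 0 (x ^ 2) (y ^ 2) m (cX 1 1 (x ^ 2) x m) * (2 * y + 1 * x + 0) ^ 2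
        - (x ^ 2 * y + x ^ 2 + x + y + 1)) = 0 := by
      simp only [cX, cY]
      linear_combination (x ^ 7 + x ^ 6 * m ^ 2 + x ^ 5 * m + x ^ 5 + x ^ 4 * y ^ 2 * m + x ^ 4 * y * m
        + x ^ 4 * m ^ 2 + x ^ 4 * m + x ^ 4 + x ^ 3 * y ^ 2 * m + x ^ 3 * y * m + x ^ 2 * y ^ 4
        + x ^ 2 * y ^ 2) * hm + (x ^ 7 + x ^ 6 + x ^ 5 * y ^ 2 + x ^ 4 * y + x ^ 3 * y ^ 3 + x ^ 3 * y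
        + x ^ 3 + x ^ 2 * y ^ 4 + x ^ 2 * y ^ 3) * hC + (x ^ 10 * m + x ^ 10 + 4 * x ^ 9 * y * m
        + 2 * x ^ 9 * y - 3 * x ^ 9 * m + 4 * x ^ 8 * y ^ 2 * m + 2 * x ^ 8 * y ^ 2 - 10 * x ^ 8 * y * m
        - 5 * x ^ 8 * y - x ^ 8 * m ^ 3 - x ^ 8 * m ^ 2 + 2 * x ^ 8 * m + x ^ 8 - 2 * x ^ 7 * y ^ 3
        - 10 * x ^ 7 * y ^ 2 * m - 2 * x ^ 7 * y ^ 2 - 2 * x ^ 7 * y * m ^ 3 - 4 * x ^ 7 * y * m ^ 2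
        + 6 * x ^ 7 * y * m + 4 * x ^ 7 * y + 2 * x ^ 7 * m ^ 3 + 3 * x ^ 7 * m ^ 2 + x ^ 7 - 2 * x ^ 6 * y ^ 4
        + 6 * x ^ 6 * y ^ 3 - 2 * x ^ 6 * y ^ 2 * m ^ 3 - 4 * x ^ 6 * y ^ 2 * m ^ 2 + 6 * x ^ 6 * y ^ 2 * m
        + 6 * x ^ 6 * y * m ^ 3 + 12 * x ^ 6 * y * m ^ 2 + 2 * x ^ 6 * y * m - 3 * x ^ 6 * y - 2 * x ^ 6 * m ^ 3
        - 3 * x ^ 6 * m ^ 2 + 2 * x ^ 6 + 6 * x ^ 5 * y ^ 4 - 5 * x ^ 5 * y ^ 3 + 6 * x ^ 5 * y ^ 2 * m ^ 3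
        + 12 * x ^ 5 * y ^ 2 * m ^ 2 + 3 * x ^ 5 * y ^ 2 * m - x ^ 5 * y ^ 2 - 6 * x ^ 5 * y * m ^ 3
        - 12 * x ^ 5 * y * m ^ 2 - x ^ 5 * y * m + 7 * x ^ 5 * y + x ^ 5 * m ^ 3 + 2 * x ^ 5 * m ^ 2
        + x ^ 5 * m + x ^ 5 - 6 * x ^ 4 * y ^ 4 + x ^ 4 * y ^ 3 * m + 2 * x ^ 4 * y ^ 3 - 6 * x ^ 4 * y ^ 2 * m ^ 3
        - 11 * x ^ 4 * y ^ 2 * m ^ 2 - x ^ 4 * y ^ 2 * m + 4 * x ^ 4 * y ^ 2 + 2 * x ^ 4 * y * m ^ 3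
        + 5 * x ^ 4 * y * m ^ 2 + x ^ 4 * y * m - 3 * x ^ 4 * y - x ^ 4 - x ^ 3 * y ^ 5 + x ^ 3 * y ^ 4 * m
        + 2 * x ^ 3 * y ^ 4 + x ^ 3 * y ^ 3 * m + 2 * x ^ 3 * y ^ 2 * m ^ 3 + 4 * x ^ 3 * y ^ 2 * m ^ 2
        + x ^ 3 * y ^ 2 * m - 2 * x ^ 3 * y ^ 2 + x ^ 3 * y + x ^ 3 + x ^ 2 * y ^ 4 + x ^ 2 * y ^ 3) * h2
    exact sub_eq_zero.mp ((mul_eq_zero.mp key).resolve_left (pow_ne_zero _ hD1))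
  have h2X : cX 1 1 x x l * (2 * y + 1 * x + 0) ^ 2 = (x ^ 2 + 1) ^ 2 := by
    simp only [cX]
    linear_combination (x ^ 2 + x * l + x + y) * hl + (1) * hC + (x ^ 4 + x ^ 3 * l + 2 * x ^ 3
      - x ^ 2 * y * l - 3 * x ^ 2 * y + x ^ 2 * l - 4 * x * y ^ 2 + x * y * l ^ 2 - 2 * x * y + 2 * y ^ 2 * l ^ 2
      + y ^ 2 * l - 3 * y ^ 2) * h2
  have h2Y : nY 1 0 (cX 1 1 x x l) (cY 1 0 x y l (cX 1 1 x x l)) * (2 * y + 1 * x + 0) ^ 4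
      = (x ^ 2 * y + x ^ 2 + x + y + 1) ^ 2 := by
    simp only [cX, cY, nY]
    linear_combination (x ^ 5 + x ^ 4 * l + x ^ 3 * l ^ 2 + x ^ 3 * l + x ^ 3 + x ^ 2 * y * l + x ^ 2 * y
      + x * y ^ 2) * hl + (x ^ 4 + x ^ 3 + x * y + 1) * hC + (2 * x ^ 7 + x ^ 6 * l + 2 * x ^ 6
      - x ^ 5 * y * l - x ^ 5 * y + x ^ 5 * l ^ 2 + x ^ 5 * l + 2 * x ^ 5 - x ^ 4 * y ^ 2 - x ^ 4 * y * l ^ 2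
      - 11 * x ^ 4 * y * l + x ^ 4 * y + x ^ 4 * l ^ 2 + x ^ 4 - 36 * x ^ 3 * y ^ 2 * l + 5 * x ^ 3 * y ^ 2
      + 3 * x ^ 3 * y * l ^ 3 + 2 * x ^ 3 * y * l ^ 2 - 5 * x ^ 3 * y * l - 48 * x ^ 2 * y ^ 3 * l
      + 12 * x ^ 2 * y ^ 3 + 12 * x ^ 2 * y ^ 2 * l ^ 3 + 11 * x ^ 2 * y ^ 2 * l ^ 2 - 14 * x ^ 2 * y ^ 2 * l
      - x ^ 2 * y ^ 2 - 2 * x ^ 2 * y - x ^ 2 - 24 * x * y ^ 4 * l + 16 * x * y ^ 4 + 16 * x * y ^ 3 * l ^ 3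
      + 16 * x * y ^ 3 * l ^ 2 - 17 * x * y ^ 3 * l - x * y ^ 3 - x * y - x + 8 * y ^ 5 + 8 * y ^ 4 * l ^ 3
      + 8 * y ^ 4 * l ^ 2 - 8 * y ^ 4 * l - y ^ 2 - y) * h2
  exact ⟨finish_sq1 hD2 h1X h2X, finish_sq2 hD2 h1Y h2Y⟩

theorem ordId_c11010 {k : Type*} [Field k] (h2 : (2 : k) = 0) :
    OrdIdPos (1 : k) 1 0 1 0 := by
  unfold OrdIdPos
  intro x y m l hC hD1 hD2 hm hl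
  have h1X : cX 1 1 (x ^ 2) x m * (2 * y + 1 * x + 0) = (x ^ 2 + 1) := by
    have key : (x ^ 2 - x) ^ 2 * (cX 1 1 (x ^ 2) x m * (2 * y + 1 * x + 0) - (x ^ 2 + 1)) = 0 := by
      simp only [cX]
      linear_combination (x ^ 3 * m + x ^ 3 + x ^ 2 * m + x * y ^ 2 + x * y) * hm + (x ^ 4 + x ^ 3
        + x ^ 2 * y + x * y ^ 2 + x) * hC + (-x ^ 6 * y + x ^ 6 + x ^ 5 * y + 2 * x ^ 5 + x ^ 4 * y * m ^ 2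
        + x ^ 4 * y * m - x ^ 4 * m ^ 2 + x ^ 4 - 2 * x ^ 3 * y * m ^ 2 - 2 * x ^ 3 * y * m + 2 * x ^ 3 * y
        + x ^ 3 * m ^ 2 + x ^ 3 * m + x ^ 3 - x ^ 2 * y ^ 3 + x ^ 2 * y ^ 2 * m + x ^ 2 * y ^ 2
        + x ^ 2 * y * m ^ 2 + 2 * x ^ 2 * y * m - x ^ 2 * y + x * y ^ 3) * h2
    exact sub_eq_zero.mp ((mul_eq_zero.mp key).resolve_left (pow_ne_zero _ hD1))
  have h1Y : cY 1 0 (x ^ 2) (y ^ 2) m (cX 1 1 (x ^ 2) x m) * (2 * y + 1 * x + 0) ^ 2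
      = (x ^ 2 * y + x ^ 2 + x + y) := by
    have key : (x ^ 2 - x) ^ 3 * (cY 1 0 (x ^ 2) (y ^ 2) m (cX 1 1 (x ^ 2) x m) * (2 * y + 1 * x + 0) ^ 2
        - (x ^ 2 * y + x ^ 2 + x + y)) = 0 := by
      simp only [cX, cY]
      linear_combination (x ^ 7 + x ^ 6 * m ^ 2 + x ^ 5 * m + x ^ 5 + x ^ 4 * y ^ 2 * m + x ^ 4 * y * m
        + x ^ 4 * m ^ 2 + x ^ 4 * m + x ^ 4 + x ^ 3 * y ^ 2 * m + x ^ 3 * y * m + x ^ 2 * y ^ 4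
        + x ^ 2 * y ^ 2) * hm + (x ^ 7 + x ^ 6 + x ^ 5 * y ^ 2 + x ^ 5 + x ^ 4 * y + x ^ 4 + x ^ 3 * y ^ 3
        + x ^ 3 * y ^ 2 + x ^ 3 + x ^ 2 * y ^ 4 + x ^ 2 * y ^ 3 + x ^ 2 * y ^ 2 + x ^ 2 * y) * hC
        + (x ^ 10 * m + x ^ 10 + 4 * x ^ 9 * y * m + 2 * x ^ 9 * y - 3 * x ^ 9 * m + 4 * x ^ 8 * y ^ 2 * m
        + 2 * x ^ 8 * y ^ 2 - 10 * x ^ 8 * y * m - 5 * x ^ 8 * y - x ^ 8 * m ^ 3 - x ^ 8 * m ^ 2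
        + 2 * x ^ 8 * m + 2 * x ^ 8 - 2 * x ^ 7 * y ^ 3 - 10 * x ^ 7 * y ^ 2 * m - 2 * x ^ 7 * y ^ 2
        - 2 * x ^ 7 * y * m ^ 3 - 4 * x ^ 7 * y * m ^ 2 + 6 * x ^ 7 * y * m + 4 * x ^ 7 * y + 2 * x ^ 7 * m ^ 3
        + 3 * x ^ 7 * m ^ 2 + 2 * x ^ 7 - 2 * x ^ 6 * y ^ 4 + 6 * x ^ 6 * y ^ 3 - 2 * x ^ 6 * y ^ 2 * m ^ 3
        - 4 * x ^ 6 * y ^ 2 * m ^ 2 + 6 * x ^ 6 * y ^ 2 * m + x ^ 6 * y ^ 2 + 6 * x ^ 6 * y * m ^ 3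
        + 12 * x ^ 6 * y * m ^ 2 + 2 * x ^ 6 * y * m - 4 * x ^ 6 * y - 2 * x ^ 6 * m ^ 3 - 3 * x ^ 6 * m ^ 2
        + 3 * x ^ 6 + 6 * x ^ 5 * y ^ 4 - 5 * x ^ 5 * y ^ 3 + 6 * x ^ 5 * y ^ 2 * m ^ 3 + 12 * x ^ 5 * y ^ 2 * m ^ 2
        + 3 * x ^ 5 * y ^ 2 * m - x ^ 5 * y ^ 2 - 6 * x ^ 5 * y * m ^ 3 - 12 * x ^ 5 * y * m ^ 2
        - x ^ 5 * y * m + 7 * x ^ 5 * y + x ^ 5 * m ^ 3 + 2 * x ^ 5 * m ^ 2 + x ^ 5 * m - 6 * x ^ 4 * y ^ 4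
        + x ^ 4 * y ^ 3 * m + 2 * x ^ 4 * y ^ 3 - 6 * x ^ 4 * y ^ 2 * m ^ 3 - 11 * x ^ 4 * y ^ 2 * m ^ 2
        - x ^ 4 * y ^ 2 * m + 5 * x ^ 4 * y ^ 2 + 2 * x ^ 4 * y * m ^ 3 + 5 * x ^ 4 * y * m ^ 2
        + x ^ 4 * y * m - 3 * x ^ 4 * y + x ^ 4 - x ^ 3 * y ^ 5 + x ^ 3 * y ^ 4 * m + 2 * x ^ 3 * y ^ 4
        + x ^ 3 * y ^ 3 * m + 2 * x ^ 3 * y ^ 2 * m ^ 3 + 4 * x ^ 3 * y ^ 2 * m ^ 2 + x ^ 3 * y ^ 2 * m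
        - 2 * x ^ 3 * y ^ 2 + x ^ 3 * y) * h2
    exact sub_eq_zero.mp ((mul_eq_zero.mp key).resolve_left (pow_ne_zero _ hD1))
  have h2X : cX 1 1 x x l * (2 * y + 1 * x + 0) ^ 2 = (x ^ 2 + 1) ^ 2 := by
    simp only [cX]
    linear_combination (x ^ 2 + x * l + x + y + 1) * hl + (1) * hC + (x ^ 4 + x ^ 3 * l + 2 * x ^ 3
      - x ^ 2 * y * l - 3 * x ^ 2 * y + x ^ 2 * l + 2 * x ^ 2 - 4 * x * y ^ 2 + x * y * l ^ 2 - 2 * x * y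
      + 2 * x + 2 * y ^ 2 * l ^ 2 + y ^ 2 * l - 3 * y ^ 2 - y * l) * h2
  have h2Y : nY 1 0 (cX 1 1 x x l) (cY 1 0 x y l (cX 1 1 x x l)) * (2 * y + 1 * x + 0) ^ 4
      = (x ^ 2 * y + x ^ 2 + x + y) ^ 2 := by
    simp only [cX, cY, nY]
    linear_combination (x ^ 5 + x ^ 4 * l + x ^ 3 * l ^ 2 + x ^ 3 * l + x ^ 3 + x ^ 2 * y * l + x ^ 2 * y
      + x ^ 2 * l + x ^ 2 + x * y ^ 2 + x) * hl + (x ^ 4 + x ^ 3 + x * y + x + 1) * hC + (2 * x ^ 7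
      + x ^ 6 * l + 2 * x ^ 6 - x ^ 5 * y * l - x ^ 5 * y + x ^ 5 * l ^ 2 + x ^ 5 * l + 3 * x ^ 5
      - x ^ 4 * y ^ 2 - x ^ 4 * y * l ^ 2 - 11 * x ^ 4 * y * l + x ^ 4 * y + x ^ 4 * l ^ 2 + 2 * x ^ 4 * l
      + 3 * x ^ 4 - 36 * x ^ 3 * y ^ 2 * l + 5 * x ^ 3 * y ^ 2 + 3 * x ^ 3 * y * l ^ 3 + 2 * x ^ 3 * y * l ^ 2
      - 5 * x ^ 3 * y * l + x ^ 3 * l + 3 * x ^ 3 - 48 * x ^ 2 * y ^ 3 * l + 12 * x ^ 2 * y ^ 3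
      + 12 * x ^ 2 * y ^ 2 * l ^ 3 + 11 * x ^ 2 * y ^ 2 * l ^ 2 - 14 * x ^ 2 * y ^ 2 * l - x ^ 2 * y ^ 2
      - x ^ 2 * y * l ^ 2 - x ^ 2 * y * l - x ^ 2 * y + 2 * x ^ 2 - 24 * x * y ^ 4 * l + 16 * x * y ^ 4
      + 16 * x * y ^ 3 * l ^ 3 + 16 * x * y ^ 3 * l ^ 2 - 17 * x * y ^ 3 * l - x * y ^ 3 - x * y * l
      - 2 * x * y + x + 8 * y ^ 5 + 8 * y ^ 4 * l ^ 3 + 8 * y ^ 4 * l ^ 2 - 8 * y ^ 4 * l - y ^ 2) * h2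
  exact ⟨finish_sq1 hD2 h1X h2X, finish_sq2 hD2 h1Y h2Y⟩

theorem ordId_c11100 {k : Type*} [Field k] (h2 : (2 : k) = 0) :
    OrdIdNeg (1 : k) 1 1 0 0 := by
  unfold OrdIdNeg
  intro x y m l hC hD1 hD2 hm hl
  have h1X : cX 1 1 (x ^ 2) x m * (2 * y + 1 * x + 1) = (x ^ 2 + x + 1) := by
    have key : (x ^ 2 - x) ^ 2 * (cX 1 1 (x ^ 2) x m * (2 * y + 1 * x + 1) - (x ^ 2 + x + 1)) = 0 := by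
      simp only [cX]
      linear_combination (x ^ 3 * m + x ^ 3 + x * y ^ 2 + x * y + x * m + x + y ^ 2 + y) * hm + (x ^ 4
        + x ^ 2 * y + x * y ^ 2 + x + y ^ 2 + y) * hC + (-x ^ 6 * y + x ^ 5 * y + x ^ 5 + x ^ 4 * y * m ^ 2
        + x ^ 4 * y * m + x ^ 4 + x ^ 3 * y ^ 2 - 2 * x ^ 3 * y * m ^ 2 - 3 * x ^ 3 * y * m + x ^ 3 * y
        - x ^ 3 * m ^ 2 - x ^ 3 * m + x ^ 3 - x ^ 2 * y ^ 3 + x ^ 2 * y * m ^ 2 + x ^ 2 * y * m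
        - x ^ 2 * y + x ^ 2 * m ^ 2 + x ^ 2 * m - x ^ 2 - x * y ^ 3 + x * y ^ 2 * m - x * y ^ 2
        - x * y - y ^ 3 - y ^ 2) * h2
    exact sub_eq_zero.mp ((mul_eq_zero.mp key).resolve_left (pow_ne_zero _ hD1))
  have h1Y : cY 1 1 (x ^ 2) (y ^ 2) m (cX 1 1 (x ^ 2) x m) * (2 * y + 1 * x + 1) ^ 2
      = (x ^ 3 + x ^ 2 * y + x) := by
    have key : (x ^ 2 - x) ^ 3 * (cY 1 1 (x ^ 2) (y ^ 2) m (cX 1 1 (x ^ 2) x m) * (2 * y + 1 * x + 1) ^ 2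
        - (x ^ 3 + x ^ 2 * y + x)) = 0 := by
      simp only [cX, cY]
      linear_combination (x ^ 7 + x ^ 6 * m ^ 2 + x ^ 4 * y ^ 2 * m + x ^ 4 * y * m + x ^ 3 * y ^ 2 * m
        + x ^ 3 * y * m + x ^ 3 + x ^ 2 * y ^ 4 + x ^ 2 * y ^ 2 * m + x ^ 2 * y ^ 2 + x ^ 2 * y * m
        + x ^ 2 * m ^ 2 + x * y ^ 2 * m + x * y * m + y ^ 4 + y ^ 2) * hm + (x ^ 7 + x ^ 5 * y ^ 2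
        + x ^ 4 * y + x ^ 3 * y ^ 3 + x ^ 3 + x ^ 2 * y ^ 4 + x ^ 2 * y ^ 2 + x ^ 2 * y + x * y ^ 3
        + x * y ^ 2 + y ^ 4 + y ^ 2) * hC + (x ^ 10 * m + x ^ 10 + 4 * x ^ 9 * y * m + 2 * x ^ 9 * y
        - x ^ 9 * m + 4 * x ^ 8 * y ^ 2 * m + 2 * x ^ 8 * y ^ 2 - 6 * x ^ 8 * y * m - 3 * x ^ 8 * y
        - x ^ 8 * m ^ 3 - x ^ 8 * m ^ 2 - 2 * x ^ 8 * m - 2 * x ^ 7 * y ^ 3 - 10 * x ^ 7 * y ^ 2 * m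
        - 3 * x ^ 7 * y ^ 2 - 2 * x ^ 7 * y * m ^ 3 - 4 * x ^ 7 * y * m ^ 2 - 4 * x ^ 7 * y * m
        - 3 * x ^ 7 * y + x ^ 7 * m ^ 3 + x ^ 7 * m ^ 2 + x ^ 7 * m - 2 * x ^ 7 - 2 * x ^ 6 * y ^ 4
        + 4 * x ^ 6 * y ^ 3 - 2 * x ^ 6 * y ^ 2 * m ^ 3 - 4 * x ^ 6 * y ^ 2 * m ^ 2 + 6 * x ^ 6 * y ^ 2 * m
        + x ^ 6 * y ^ 2 + 4 * x ^ 6 * y * m ^ 3 + 7 * x ^ 6 * y * m ^ 2 + 8 * x ^ 6 * y * m + 3 * x ^ 6 * y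
        + x ^ 6 * m ^ 3 + 2 * x ^ 6 * m ^ 2 + 2 * x ^ 6 * m + 4 * x ^ 6 + 6 * x ^ 5 * y ^ 4 + 6 * x ^ 5 * y ^ 2 * m ^ 3
        + 12 * x ^ 5 * y ^ 2 * m ^ 2 + 2 * x ^ 5 * y ^ 2 * m + 3 * x ^ 5 * y ^ 2 + 3 * x ^ 5 * y
        - x ^ 5 * m ^ 3 - 2 * x ^ 5 * m ^ 2 - x ^ 5 * m - x ^ 5 - 6 * x ^ 4 * y ^ 4 - 4 * x ^ 4 * y ^ 3
        - 6 * x ^ 4 * y ^ 2 * m ^ 3 - 12 * x ^ 4 * y ^ 2 * m ^ 2 - 3 * x ^ 4 * y ^ 2 * m - 2 * x ^ 4 * y ^ 2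
        - 4 * x ^ 4 * y * m ^ 3 - 8 * x ^ 4 * y * m ^ 2 - 2 * x ^ 4 * y * m - 2 * x ^ 4 * y - x ^ 4 * m ^ 3
        - x ^ 4 * m ^ 2 - x ^ 3 * y ^ 5 + x ^ 3 * y ^ 4 * m + 2 * x ^ 3 * y ^ 4 + 2 * x ^ 3 * y ^ 3
        + 2 * x ^ 3 * y ^ 2 * m ^ 3 + 4 * x ^ 3 * y ^ 2 * m ^ 2 + x ^ 3 * y ^ 2 + 2 * x ^ 3 * y * m ^ 3
        + 4 * x ^ 3 * y * m ^ 2 - x ^ 3 * y + x ^ 3 * m ^ 3 + x ^ 3 * m ^ 2 - x ^ 2 * y ^ 5 - 2 * x ^ 2 * y ^ 3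
        + x ^ 2 * y ^ 2 * m ^ 2 - x ^ 2 * y ^ 2 * m - x * y ^ 5 + x * y ^ 4 * m - x * y ^ 4 - x * y ^ 3
        - y ^ 5 - y ^ 3) * h2
    exact sub_eq_zero.mp ((mul_eq_zero.mp key).resolve_left (pow_ne_zero _ hD1))
  have h2X : cX 1 1 x x l * (2 * y + 1 * x + 1) ^ 2 = (x ^ 2 + x + 1) ^ 2 := by
    simp only [cX]
    linear_combination (x ^ 2 + x * l + x + y + l + 1) * hl + (1) * hC + (x ^ 4 + x ^ 3 * l + x ^ 3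
      - x ^ 2 * y * l - 3 * x ^ 2 * y + 2 * x ^ 2 * l - x ^ 2 - 4 * x * y ^ 2 + x * y * l ^ 2 - 6 * x * y
      + x * l - 2 * x + 2 * y ^ 2 * l ^ 2 + y ^ 2 * l - 3 * y ^ 2 + y * l ^ 2 - 3 * y - 1) * h2
  have h2Y : nY 1 1 (cX 1 1 x x l) (cY 1 1 x y l (cX 1 1 x x l)) * (2 * y + 1 * x + 1) ^ 4
      = (x ^ 3 + x ^ 2 * y + x) ^ 2 := by
    simp only [cX, cY, nY]
    linear_combination (x ^ 5 + x ^ 4 * l + x ^ 4 + x ^ 3 * l ^ 2 + x ^ 3 * l + x ^ 2 * y * l + x ^ 2 * y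
      + x ^ 2 * l ^ 2 + x ^ 2 + x * y ^ 2 + x * l ^ 2 + x * l + y ^ 2 + y * l + y + l ^ 2 + l + 1) * hl
      + (x ^ 4 + x ^ 3 + x ^ 2 + x * y + y) * hC + (2 * x ^ 7 + x ^ 6 * l + 3 * x ^ 6 - x ^ 5 * y * l
      - 2 * x ^ 5 * y + x ^ 5 * l ^ 2 + 2 * x ^ 5 - x ^ 4 * y ^ 2 - x ^ 4 * y * l ^ 2 - 12 * x ^ 4 * y * l
      + x ^ 4 * y + 2 * x ^ 4 * l ^ 2 - 6 * x ^ 4 * l + x ^ 4 - 36 * x ^ 3 * y ^ 2 * l + 5 * x ^ 3 * y ^ 2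
      + 3 * x ^ 3 * y * l ^ 3 + 2 * x ^ 3 * y * l ^ 2 - 40 * x ^ 3 * y * l + 2 * x ^ 3 * y + x ^ 3 * l ^ 3
      + 4 * x ^ 3 * l ^ 2 - 10 * x ^ 3 * l + x ^ 3 - 48 * x ^ 2 * y ^ 3 * l + 12 * x ^ 2 * y ^ 3
      + 12 * x ^ 2 * y ^ 2 * l ^ 3 + 11 * x ^ 2 * y ^ 2 * l ^ 2 - 86 * x ^ 2 * y ^ 2 * l + 13 * x ^ 2 * y ^ 2
      + 11 * x ^ 2 * y * l ^ 3 + 11 * x ^ 2 * y * l ^ 2 - 48 * x ^ 2 * y * l + 4 * x ^ 2 * y + 2 * x ^ 2 * l ^ 3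
      + 5 * x ^ 2 * l ^ 2 - 7 * x ^ 2 * l + x ^ 2 - 24 * x * y ^ 4 * l + 16 * x * y ^ 4 + 16 * x * y ^ 3 * l ^ 3
      + 16 * x * y ^ 3 * l ^ 2 - 65 * x * y ^ 3 * l + 23 * x * y ^ 3 + 24 * x * y ^ 2 * l ^ 3 + 24 * x * y ^ 2 * l ^ 2
      - 61 * x * y ^ 2 * l + 12 * x * y ^ 2 + 11 * x * y * l ^ 3 + 10 * x * y * l ^ 2 - 24 * x * y * l
      + 3 * x * y + x * l ^ 3 + 2 * x * l ^ 2 - 3 * x * l + x + 8 * y ^ 5 + 8 * y ^ 4 * l ^ 3 + 8 * y ^ 4 * l ^ 2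
      - 8 * y ^ 4 * l + 16 * y ^ 4 + 16 * y ^ 3 * l ^ 3 + 16 * y ^ 3 * l ^ 2 - 17 * y ^ 3 * l + 11 * y ^ 3
      + 12 * y ^ 2 * l ^ 3 + 11 * y ^ 2 * l ^ 2 - 14 * y ^ 2 * l + 3 * y ^ 2 + 3 * y * l ^ 3 + 2 * y * l ^ 2
      - 6 * y * l - l) * h2
  exact ⟨finish_sq1 hD2 h1X h2X, finish_sq2 hD2 h1Y h2Y⟩

theorem ordId_c11110 {k : Type*} [Field k] (h2 : (2 : k) = 0) :
    OrdIdNeg (1 : k) 1 1 1 0 := by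
  unfold OrdIdNeg
  intro x y m l hC hD1 hD2 hm hl
  have h1X : cX 1 1 (x ^ 2) x m * (2 * y + 1 * x + 1) = (x ^ 2 + x + 1) := by
    have key : (x ^ 2 - x) ^ 2 * (cX 1 1 (x ^ 2) x m * (2 * y + 1 * x + 1) - (x ^ 2 + x + 1)) = 0 := by
      simp only [cX]
      linear_combination (x ^ 3 * m + x ^ 3 + x * y ^ 2 + x * y + x * m + x + y ^ 2 + y) * hm + (x ^ 4
        + x ^ 2 * y + x ^ 2 + x * y ^ 2 + y ^ 2 + y) * hC + (-x ^ 6 * y + x ^ 5 * y + 2 * x ^ 5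
        + x ^ 4 * y * m ^ 2 + x ^ 4 * y * m + x ^ 4 + x ^ 3 * y ^ 2 - 2 * x ^ 3 * y * m ^ 2 - 3 * x ^ 3 * y * m
        + x ^ 3 * y - x ^ 3 * m ^ 2 - x ^ 3 * m + x ^ 3 - x ^ 2 * y ^ 3 + x ^ 2 * y * m ^ 2 + x ^ 2 * y * m
        - x ^ 2 * y + x ^ 2 * m ^ 2 + x ^ 2 * m - x ^ 2 - x * y ^ 3 + x * y ^ 2 * m - y ^ 3 - y ^ 2) * h2
    exact sub_eq_zero.mp ((mul_eq_zero.mp key).resolve_left (pow_ne_zero _ hD1))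
  have h1Y : cY 1 1 (x ^ 2) (y ^ 2) m (cX 1 1 (x ^ 2) x m) * (2 * y + 1 * x + 1) ^ 2
      = (x ^ 3 + x ^ 2 * y + x + 1) := by
    have key : (x ^ 2 - x) ^ 3 * (cY 1 1 (x ^ 2) (y ^ 2) m (cX 1 1 (x ^ 2) x m) * (2 * y + 1 * x + 1) ^ 2
        - (x ^ 3 + x ^ 2 * y + x + 1)) = 0 := by
      simp only [cX, cY]
      linear_combination (x ^ 7 + x ^ 6 * m ^ 2 + x ^ 4 * y ^ 2 * m + x ^ 4 * y * m + x ^ 3 * y ^ 2 * m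
        + x ^ 3 * y * m + x ^ 3 + x ^ 2 * y ^ 4 + x ^ 2 * y ^ 2 * m + x ^ 2 * y ^ 2 + x ^ 2 * y * m
        + x ^ 2 * m ^ 2 + x * y ^ 2 * m + x * y * m + y ^ 4 + y ^ 2) * hm + (x ^ 7 + x ^ 5 * y ^ 2
        + x ^ 5 + x ^ 4 * y + x ^ 4 + x ^ 3 * y ^ 3 + x ^ 3 * y ^ 2 + x ^ 3 * y + x ^ 2 * y ^ 4
        + x ^ 2 * y ^ 2 + x ^ 2 * y + x ^ 2 + x * y ^ 3 + x * y + y ^ 4 + y ^ 2) * hC + (x ^ 10 * m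
        + x ^ 10 + 4 * x ^ 9 * y * m + 2 * x ^ 9 * y - x ^ 9 * m + 4 * x ^ 8 * y ^ 2 * m + 2 * x ^ 8 * y ^ 2
        - 6 * x ^ 8 * y * m - 3 * x ^ 8 * y - x ^ 8 * m ^ 3 - x ^ 8 * m ^ 2 - 2 * x ^ 8 * m + x ^ 8
        - 2 * x ^ 7 * y ^ 3 - 10 * x ^ 7 * y ^ 2 * m - 3 * x ^ 7 * y ^ 2 - 2 * x ^ 7 * y * m ^ 3
        - 4 * x ^ 7 * y * m ^ 2 - 4 * x ^ 7 * y * m - 3 * x ^ 7 * y + x ^ 7 * m ^ 3 + x ^ 7 * m ^ 2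
        + x ^ 7 * m - x ^ 7 - 2 * x ^ 6 * y ^ 4 + 4 * x ^ 6 * y ^ 3 - 2 * x ^ 6 * y ^ 2 * m ^ 3
        - 4 * x ^ 6 * y ^ 2 * m ^ 2 + 6 * x ^ 6 * y ^ 2 * m + 2 * x ^ 6 * y ^ 2 + 4 * x ^ 6 * y * m ^ 3
        + 7 * x ^ 6 * y * m ^ 2 + 8 * x ^ 6 * y * m + 3 * x ^ 6 * y + x ^ 6 * m ^ 3 + 2 * x ^ 6 * m ^ 2
        + 2 * x ^ 6 * m + 4 * x ^ 6 + 6 * x ^ 5 * y ^ 4 + 6 * x ^ 5 * y ^ 2 * m ^ 3 + 12 * x ^ 5 * y ^ 2 * m ^ 2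
        + 2 * x ^ 5 * y ^ 2 * m + 3 * x ^ 5 * y ^ 2 + 3 * x ^ 5 * y - x ^ 5 * m ^ 3 - 2 * x ^ 5 * m ^ 2
        - x ^ 5 * m + x ^ 5 - 6 * x ^ 4 * y ^ 4 - 4 * x ^ 4 * y ^ 3 - 6 * x ^ 4 * y ^ 2 * m ^ 3
        - 12 * x ^ 4 * y ^ 2 * m ^ 2 - 3 * x ^ 4 * y ^ 2 * m - 3 * x ^ 4 * y ^ 2 - 4 * x ^ 4 * y * m ^ 3
        - 8 * x ^ 4 * y * m ^ 2 - 2 * x ^ 4 * y * m - x ^ 4 * y - x ^ 4 * m ^ 3 - x ^ 4 * m ^ 2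
        - x ^ 4 - x ^ 3 * y ^ 5 + x ^ 3 * y ^ 4 * m + 2 * x ^ 3 * y ^ 4 + x ^ 3 * y ^ 3 + 2 * x ^ 3 * y ^ 2 * m ^ 3
        + 4 * x ^ 3 * y ^ 2 * m ^ 2 + x ^ 3 * y ^ 2 + 2 * x ^ 3 * y * m ^ 3 + 4 * x ^ 3 * y * m ^ 2
        + x ^ 3 * m ^ 3 + x ^ 3 * m ^ 2 + x ^ 3 - x ^ 2 * y ^ 5 - x ^ 2 * y ^ 3 + x ^ 2 * y ^ 2 * m ^ 2
        - x ^ 2 * y ^ 2 * m - x ^ 2 * y ^ 2 - x * y ^ 5 + x * y ^ 4 * m - x * y ^ 3 - y ^ 5 - y ^ 3) * h2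
    exact sub_eq_zero.mp ((mul_eq_zero.mp key).resolve_left (pow_ne_zero _ hD1))
  have h2X : cX 1 1 x x l * (2 * y + 1 * x + 1) ^ 2 = (x ^ 2 + x + 1) ^ 2 := by
    simp only [cX]
    linear_combination (x ^ 2 + x * l + x + y + l) * hl + (1) * hC + (x ^ 4 + x ^ 3 * l + x ^ 3
      - x ^ 2 * y * l - 3 * x ^ 2 * y + 2 * x ^ 2 * l - 2 * x ^ 2 - 4 * x * y ^ 2 + x * y * l ^ 2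
      - 6 * x * y + 2 * x * l - 2 * x + 2 * y ^ 2 * l ^ 2 + y ^ 2 * l - 3 * y ^ 2 + y * l ^ 2 + y * l
      - 2 * y + l - 1) * h2
  have h2Y : nY 1 1 (cX 1 1 x x l) (cY 1 1 x y l (cX 1 1 x x l)) * (2 * y + 1 * x + 1) ^ 4
      = (x ^ 3 + x ^ 2 * y + x + 1) ^ 2 := by
    simp only [cX, cY, nY]
    linear_combination (x ^ 5 + x ^ 4 * l + x ^ 4 + x ^ 3 * l ^ 2 + x ^ 3 * l + x ^ 2 * y * l + x ^ 2 * y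
      + x ^ 2 * l ^ 2 + x ^ 2 * l + x * y ^ 2 + x * l ^ 2 + x * l + x + y ^ 2 + y * l + y + l ^ 2
      + 1) * hl + (x ^ 4 + x ^ 3 + x ^ 2 + x * y + x + y + 1) * hC + (2 * x ^ 7 + x ^ 6 * l + 3 * x ^ 6
      - x ^ 5 * y * l - 2 * x ^ 5 * y + x ^ 5 * l ^ 2 + 3 * x ^ 5 - x ^ 4 * y ^ 2 - x ^ 4 * y * l ^ 2
      - 12 * x ^ 4 * y * l + x ^ 4 * y + 2 * x ^ 4 * l ^ 2 - 4 * x ^ 4 * l + x ^ 4 - 36 * x ^ 3 * y ^ 2 * l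
      + 5 * x ^ 3 * y ^ 2 + 3 * x ^ 3 * y * l ^ 3 + 2 * x ^ 3 * y * l ^ 2 - 40 * x ^ 3 * y * l
      + 2 * x ^ 3 * y + x ^ 3 * l ^ 3 + 4 * x ^ 3 * l ^ 2 - 8 * x ^ 3 * l + 2 * x ^ 3 - 48 * x ^ 2 * y ^ 3 * l
      + 12 * x ^ 2 * y ^ 3 + 12 * x ^ 2 * y ^ 2 * l ^ 3 + 11 * x ^ 2 * y ^ 2 * l ^ 2 - 86 * x ^ 2 * y ^ 2 * l
      + 13 * x ^ 2 * y ^ 2 + 11 * x ^ 2 * y * l ^ 3 + 10 * x ^ 2 * y * l ^ 2 - 47 * x ^ 2 * y * l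
      + 4 * x ^ 2 * y + 2 * x ^ 2 * l ^ 3 + 5 * x ^ 2 * l ^ 2 - 8 * x ^ 2 * l + 3 * x ^ 2 - 24 * x * y ^ 4 * l
      + 16 * x * y ^ 4 + 16 * x * y ^ 3 * l ^ 3 + 16 * x * y ^ 3 * l ^ 2 - 65 * x * y ^ 3 * l + 23 * x * y ^ 3
      + 24 * x * y ^ 2 * l ^ 3 + 24 * x * y ^ 2 * l ^ 2 - 61 * x * y ^ 2 * l + 12 * x * y ^ 2 + 11 * x * y * l ^ 3
      + 10 * x * y * l ^ 2 - 25 * x * y * l + 2 * x * y + x * l ^ 3 + 3 * x * l ^ 2 - 4 * x * l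
      + x + 8 * y ^ 5 + 8 * y ^ 4 * l ^ 3 + 8 * y ^ 4 * l ^ 2 - 8 * y ^ 4 * l + 16 * y ^ 4 + 16 * y ^ 3 * l ^ 3
      + 16 * y ^ 3 * l ^ 2 - 17 * y ^ 3 * l + 11 * y ^ 3 + 12 * y ^ 2 * l ^ 3 + 11 * y ^ 2 * l ^ 2
      - 14 * y ^ 2 * l + 3 * y ^ 2 + 3 * y * l ^ 3 + 3 * y * l ^ 2 - 5 * y * l + l ^ 2 - l) * h2
  exact ⟨finish_sq1 hD2 h1X h2X, finish_sq2 hD2 h1Y h2Y⟩

end Fermat.Agent.FrobTrace.Char2
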