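import Fermat.Agent.Lib.FrobTrace.Char2.Ord

/-!
# FrobTrace / Char2 / SS: the supersingular curves over `F₂` (`a₁ = 0`, `a₃ = 1`), skeleton
(helper51)

Here `2y + a₁x + a₃ = 1` in characteristic 2, there is no 2-torsion and all the formulas are
valid at every affine point.
-/

set_option autoImplicit false

open WeierstrassCurve WeierstrassCurve.Affine

namespace Fermat.Agent.FrobTrace.Char2

open Fermat.Agent.S52 (frobPt)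

/-- identity package, supersingular case, `φ²P = -2P` (trace `0`) -/
def SSIdZero {k : Type*} [Field k] (a1 a2 a3 a4 a6 : k) : Prop :=
  ∀ x y l : k, y ^ 2 + a1 * x * y + a3 * y = x ^ 3 + a2 * x ^ 2 + a4 * x + a6 →
    l * (2 * y + a1 * x + a3) = 3 * x ^ 2 + 2 * a2 * x + a4 - a1 * y →
    (x ^ 2) ^ 2 = cX a1 a2 x x l ∧
    (y ^ 2) ^ 2 = nY a1 a3 (cX a1 a2 x x l) (cY a1 a3 x y l (cX a1 a2 x x l))

/-- identity package, supersingular case, `φ²P + 2P = 2 φP` (trace `2`) -/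
def SSIdPos2 {k : Type*} [Field k] (a1 a2 a3 a4 a6 : k) : Prop :=
  ∀ x y l : k, y ^ 2 + a1 * x * y + a3 * y = x ^ 3 + a2 * x ^ 2 + a4 * x + a6 →
    l * (2 * y + a1 * x + a3) = 3 * x ^ 2 + 2 * a2 * x + a4 - a1 * y →
    (x ^ 2) ^ 2 - cX a1 a2 x x l ≠ 0 ∧
    ∀ m n : k,
      m * ((x ^ 2) ^ 2 - cX a1 a2 x x l) = (y ^ 2) ^ 2 - cY a1 a3 x y l (cX a1 a2 x x l) →
      n * (2 * y ^ 2 + a1 * x ^ 2 + a3) = 3 * (x ^ 2) ^ 2 + 2 * a2 * x ^ 2 + a4 - a1 * y ^ 2 →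
      cX a1 a2 ((x ^ 2) ^ 2) (cX a1 a2 x x l) m = cX a1 a2 (x ^ 2) (x ^ 2) n ∧
      cY a1 a3 ((x ^ 2) ^ 2) ((y ^ 2) ^ 2) m (cX a1 a2 ((x ^ 2) ^ 2) (cX a1 a2 x x l) m)
        = cY a1 a3 (x ^ 2) (y ^ 2) n (cX a1 a2 (x ^ 2) (x ^ 2) n)

/-- identity package, supersingular case, `φ²P + 2P = -2 φP` (trace `-2`) -/
def SSIdNeg2 {k : Type*} [Field k] (a1 a2 a3 a4 a6 : k) : Prop :=
  ∀ x y l : k, y ^ 2 + a1 * x * y + a3 * y = x ^ 3 + a2 * x ^ 2 + a4 * x + a6 →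
    l * (2 * y + a1 * x + a3) = 3 * x ^ 2 + 2 * a2 * x + a4 - a1 * y →
    (x ^ 2) ^ 2 - cX a1 a2 x x l ≠ 0 ∧
    ∀ m n : k,
      m * ((x ^ 2) ^ 2 - cX a1 a2 x x l) = (y ^ 2) ^ 2 - cY a1 a3 x y l (cX a1 a2 x x l) →
      n * (2 * y ^ 2 + a1 * x ^ 2 + a3) = 3 * (x ^ 2) ^ 2 + 2 * a2 * x ^ 2 + a4 - a1 * y ^ 2 →
      cX a1 a2 ((x ^ 2) ^ 2) (cX a1 a2 x x l) m = cX a1 a2 (x ^ 2) (x ^ 2) n ∧
      cY a1 a3 ((x ^ 2) ^ 2) ((y ^ 2) ^ 2) m (cX a1 a2 ((x ^ 2) ^ 2) (cX a1 a2 x x l) m)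
        = nY a1 a3 (cX a1 a2 (x ^ 2) (x ^ 2) n)
            (cY a1 a3 (x ^ 2) (y ^ 2) n (cX a1 a2 (x ^ 2) (x ^ 2) n))

section Skeleton

variable {W : WeierstrassCurve (ZMod 2)}
variable {k : Type*} [Field k] [Algebra (ZMod 2) k] [DecidableEq k]

omit [DecidableEq k] in
/-- `2y + a₁x + a₃ ≠ 0` on a supersingular curve -/
lemma ss_den_ne_zero (e1 : W.a₁ = 0) (e3 : W.a₃ = 1) (x y : k) :
    2 * y + (W⁄k).a₁ * x + (W⁄k).a₃ ≠ 0 := by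
  have h2 : (2 : k) = 0 := two_eq_zero_of_algebra
  have ea1 : (W⁄k).a₁ = 0 := by rw [baseChange_a₁, e1, map_zero]
  have ea3 : (W⁄k).a₃ = 1 := by rw [baseChange_a₃, e3, map_one]
  rw [ea1, ea3]
  have : 2 * y + 0 * x + 1 = (1 : k) := by linear_combination y * h2
  rw [this]
  exact one_ne_zero

/-- the tangent at an affine point of a supersingular curve -/
lemma ss_tangent (e1 : W.a₁ = 0) (e3 : W.a₃ = 1) {x y : k} (hxy : (W⁄k).Nonsingular x y) :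
    ∃ l : k, l * (2 * y + (W⁄k).a₁ * x + (W⁄k).a₃)
        = 3 * x ^ 2 + 2 * (W⁄k).a₂ * x + (W⁄k).a₄ - (W⁄k).a₁ * y ∧
      ∃ h₂ : (W⁄k).Nonsingular (cX (W⁄k).a₁ (W⁄k).a₂ x x l)
          (cY (W⁄k).a₁ (W⁄k).a₃ x y l (cX (W⁄k).a₁ (W⁄k).a₂ x x l)),
        Point.some x y hxy + Point.some x y hxy = Point.some _ _ h₂ := by
  have hD := ss_den_ne_zero (k := k) e1 e3 x y
  refine ⟨(3 * x ^ 2 + 2 * (W⁄k).a₂ * x + (W⁄k).a₄ - (W⁄k).a₁ * y)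
    / (2 * y + (W⁄k).a₁ * x + (W⁄k).a₃), div_mul_cancel₀ _ hD, ?_⟩
  exact tangent_some (W⁄k) hxy hD (div_mul_cancel₀ _ hD) rfl rfl

/-- supersingular case, trace `0` -/
theorem ss_zero (e1 : W.a₁ = 0) (e3 : W.a₃ = 1)
    (hid : SSIdZero (W⁄k).a₁ (W⁄k).a₂ (W⁄k).a₃ (W⁄k).a₄ (W⁄k).a₆) (P : (W⁄k).Point) :
    frobPt W k (frobPt W k P) + (P + P) = 0 := by
  rcases P with _ | ⟨x, y, hxy⟩
  · change frobPt W k (frobPt W k 0) + (0 + 0) = 0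
    simp only [map_zero, add_zero]
  have hC := hxy.1
  rw [Affine.equation_iff] at hC
  obtain ⟨l, hl, h₂, hdbl⟩ := ss_tangent e1 e3 hxy
  obtain ⟨h₁, hφ⟩ := frobPt_some_pow W hxy
  obtain ⟨h₁', hφ'⟩ := frobPt_some_pow W h₁
  obtain ⟨hX, hY⟩ := hid x y l hC hl
  rw [hφ, hφ', hdbl]
  exact add_some_eq_zero (W⁄k) h₁' h₂ hX hY

/-- the common part of the cases of trace `±2` -/
lemma ss_two_aux (e1 : W.a₁ = 0) (e3 : W.a₃ = 1) {x y : k} (hxy : (W⁄k).Nonsingular x y)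
    {l : k} (hl : l * (2 * y + (W⁄k).a₁ * x + (W⁄k).a₃)
        = 3 * x ^ 2 + 2 * (W⁄k).a₂ * x + (W⁄k).a₄ - (W⁄k).a₁ * y)
    (hD : (x ^ 2) ^ 2 - cX (W⁄k).a₁ (W⁄k).a₂ x x l ≠ 0) :
    ∃ m n : k,
      m * ((x ^ 2) ^ 2 - cX (W⁄k).a₁ (W⁄k).a₂ x x l)
        = (y ^ 2) ^ 2 - cY (W⁄k).a₁ (W⁄k).a₃ x y l (cX (W⁄k).a₁ (W⁄k).a₂ x x l) ∧
      n * (2 * y ^ 2 + (W⁄k).a₁ * x ^ 2 + (W⁄k).a₃)
        = 3 * (x ^ 2) ^ 2 + 2 * (W⁄k).a₂ * x ^ 2 + (W⁄k).a₄ - (W⁄k).a₁ * y ^ 2 ∧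
      ∃ (hL : (W⁄k).Nonsingular
          (cX (W⁄k).a₁ (W⁄k).a₂ ((x ^ 2) ^ 2) (cX (W⁄k).a₁ (W⁄k).a₂ x x l) m)
          (cY (W⁄k).a₁ (W⁄k).a₃ ((x ^ 2) ^ 2) ((y ^ 2) ^ 2) m
            (cX (W⁄k).a₁ (W⁄k).a₂ ((x ^ 2) ^ 2) (cX (W⁄k).a₁ (W⁄k).a₂ x x l) m)))
        (hR : (W⁄k).Nonsingular (cX (W⁄k).a₁ (W⁄k).a₂ (x ^ 2) (x ^ 2) n)
          (cY (W⁄k).a₁ (W⁄k).a₃ (x ^ 2) (y ^ 2) n (cX (W⁄k).a₁ (W⁄k).a₂ (x ^ 2) (x ^ 2) n))),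
        frobPt W k (frobPt W k (Point.some x y hxy))
            + (Point.some x y hxy + Point.some x y hxy) = Point.some _ _ hL ∧
          frobPt W k (Point.some x y hxy) + frobPt W k (Point.some x y hxy)
            = Point.some _ _ hR := by
  have hD2 := ss_den_ne_zero (k := k) e1 e3 x y
  obtain ⟨h₂, hdbl⟩ := tangent_some (W⁄k) hxy hD2 hl rfl rfl
  obtain ⟨h₁, hφ⟩ := frobPt_some_pow W hxy
  obtain ⟨h₁', hφ'⟩ := frobPt_some_pow W h₁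
  have hm := div_mul_cancel₀
    ((y ^ 2) ^ 2 - cY (W⁄k).a₁ (W⁄k).a₃ x y l (cX (W⁄k).a₁ (W⁄k).a₂ x x l)) hD
  obtain ⟨hL, hchord⟩ := chord_some (W⁄k) h₁' h₂ hD hm rfl rfl
  have hDn := ss_den_ne_zero (k := k) e1 e3 (x ^ 2) (y ^ 2)
  have hn := div_mul_cancel₀
    (3 * (x ^ 2) ^ 2 + 2 * (W⁄k).a₂ * x ^ 2 + (W⁄k).a₄ - (W⁄k).a₁ * y ^ 2) hDn
  obtain ⟨hR, htan⟩ := tangent_some (W⁄k) h₁ hDn hn rfl rfl
  refine ⟨_, _, hm, hn, hL, hR, ?_, ?_⟩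
  · rw [hφ, hφ', hdbl]
    exact hchord
  · rw [hφ]
    exact htan

/-- supersingular case, trace `2` -/
theorem ss_pos2 (e1 : W.a₁ = 0) (e3 : W.a₃ = 1)
    (hid : SSIdPos2 (W⁄k).a₁ (W⁄k).a₂ (W⁄k).a₃ (W⁄k).a₄ (W⁄k).a₆) (P : (W⁄k).Point) :
    frobPt W k (frobPt W k P) + (P + P) = frobPt W k P + frobPt W k P := by
  rcases P with _ | ⟨x, y, hxy⟩
  · change frobPt W k (frobPt W k 0) + (0 + 0) = frobPt W k 0 + frobPt W k 0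
    simp only [map_zero, add_zero]
  have hC := hxy.1
  rw [Affine.equation_iff] at hC
  obtain ⟨l, hl, -, -⟩ := ss_tangent e1 e3 hxy
  obtain ⟨hD, hmn⟩ := hid x y l hC hl
  obtain ⟨m, n, hm, hn, hL, hR, eL, eR⟩ := ss_two_aux e1 e3 hxy hl hD
  obtain ⟨hX, hY⟩ := hmn m n hm hn
  rw [eL, eR]
  obtain ⟨h', e⟩ := some_eq_some_of (W⁄k) hL hX hY
  rw [e]

/-- supersingular case, trace `-2` -/
theorem ss_neg2 (e1 : W.a₁ = 0) (e3 : W.a₃ = 1)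
    (hid : SSIdNeg2 (W⁄k).a₁ (W⁄k).a₂ (W⁄k).a₃ (W⁄k).a₄ (W⁄k).a₆) (P : (W⁄k).Point) :
    frobPt W k (frobPt W k P) + (P + P) = -(frobPt W k P + frobPt W k P) := by
  rcases P with _ | ⟨x, y, hxy⟩
  · change frobPt W k (frobPt W k 0) + (0 + 0) = -(frobPt W k 0 + frobPt W k 0)
    simp only [map_zero, add_zero, neg_zero]
  have hC := hxy.1
  rw [Affine.equation_iff] at hC
  obtain ⟨l, hl, -, -⟩ := ss_tangent e1 e3 hxy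
  obtain ⟨hD, hmn⟩ := hid x y l hC hl
  obtain ⟨m, n, hm, hn, hL, hR, eL, eR⟩ := ss_two_aux e1 e3 hxy hl hD
  obtain ⟨hX, hY⟩ := hmn m n hm hn
  rw [eL, eR]
  obtain ⟨hN, eN⟩ := neg_some_eq (W⁄k) hR
  rw [eN]
  obtain ⟨h', e⟩ := some_eq_some_of (W⁄k) hL hX hY
  rw [e]
  rfl

end Skeleton

end Fermat.Agent.FrobTrace.Char2
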